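/-
S59, unit D: a complete intersection `fᵢ = Xᵢ^Nᵢ + (lower total degree)` has box monomials as a
basis of its quotient and, over a field, a simple socle at the origin.
-/
import Mathlib.RingTheory.MvPolynomial.Basic
import Mathlib.RingTheory.Finiteness.Basic
import Mathlib.Algebra.MvPolynomial.CommRing
import Mathlib.Data.Finsupp.Weight
import Mathlib.RingTheory.Ideal.BigOperators
import Mathlib.RingTheory.Ideal.Quotient.Operations

set_option autoImplicit false

noncomputable section

namespace Fermat.Agent.R59.Box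

open MvPolynomial

variable {n : ℕ} {A : Type} [CommRing A]

/-- All monomials have total degree smaller than `d`. -/
def Low (d : ℕ) (p : MvPolynomial (Fin n) A) : Prop := ∀ e ∈ p.support, e.degree < d

theorem low_zero (d : ℕ) : Low d (0 : MvPolynomial (Fin n) A) := by simp [Low]

theorem Low.add {d : ℕ} {p q : MvPolynomial (Fin n) A} (hp : Low d p) (hq : Low d q) :
    Low d (p + q) := by
  classical
  exact fun e he => (Finset.mem_union.mp (support_add he)).elim (hp e) (hq e)

theorem Low.neg {d : ℕ} {p : MvPolynomial (Fin n) A} (hp : Low d p) : Low d (-p) := by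
  intro e he
  refine hp e (mem_support_iff.mpr fun h => mem_support_iff.mp he ?_)
  rw [coeff_neg, h, neg_zero]

theorem Low.mono {d d' : ℕ} {p : MvPolynomial (Fin n) A} (hp : Low d p) (h : d ≤ d') : Low d' p :=
  fun e he => (hp e he).trans_le h

theorem Low.mul {a b d : ℕ} {p q : MvPolynomial (Fin n) A} (hp : Low a p) (hq : Low (b + 1) q)
    (h : a + b ≤ d) : Low d (p * q) := by
  classical
  intro e he
  obtain ⟨e₁, he₁, e₂, he₂, rfl⟩ := Finset.mem_add.mp (support_mul p q he)
  rw [map_add]
  have := hp e₁ he₁
  have := hq e₂ he₂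
  omega

theorem low_monomial (e : Fin n →₀ ℕ) (c : A) : Low (e.degree + 1) (monomial e c) := fun x hx => by
  rw [Finset.mem_singleton.mp (support_monomial_subset hx)]
  exact Nat.lt_succ_self _

theorem low_sum {ι : Type*} (s : Finset ι) {d : ℕ} (g : ι → MvPolynomial (Fin n) A)
    (h : ∀ i ∈ s, Low d (g i)) : Low d (∑ i ∈ s, g i) := by
  classical
  induction s using Finset.induction_on with
  | empty => exact low_zero d
  | insert i s hi ih =>
    rw [Finset.sum_insert hi]
    exact (h i (Finset.mem_insert_self i s)).add (ih fun j hj => h j (Finset.mem_insert_of_mem hj))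

theorem coeff_eq_zero_of_low {d : ℕ} {p : MvPolynomial (Fin n) A} (hp : Low d p) {e : Fin n →₀ ℕ}
    (he : d ≤ e.degree) : coeff e p = 0 :=
  notMem_support_iff.mp fun h => (hp e h).not_ge he

theorem low_totalDegree (p : MvPolynomial (Fin n) A) : Low (p.totalDegree + 1) p := fun _ he =>
  Nat.lt_succ_of_le (le_totalDegree he)

/-- `p` is `X^e` plus lower terms. -/
def Tri (e : Fin n →₀ ℕ) (p : MvPolynomial (Fin n) A) : Prop :=
  Low e.degree (p - monomial e 1)

theorem Tri.low {e : Fin n →₀ ℕ} {p : MvPolynomial (Fin n) A} (h : Tri e p) :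
    Low (e.degree + 1) p := by
  have := (h.mono (Nat.le_succ _)).add (low_monomial e 1)
  rwa [sub_add_cancel] at this

theorem tri_monomial (e : Fin n →₀ ℕ) : Tri e (monomial e (1 : A)) := by
  rw [Tri, sub_self]
  exact low_zero _

theorem Tri.mul {e e' : Fin n →₀ ℕ} {p q : MvPolynomial (Fin n) A} (hp : Tri e p) (hq : Tri e' q) :
    Tri (e + e') (p * q) := by
  have h : p * q - monomial (e + e') (1 : A) =
      (p - monomial e 1) * q + (q - monomial e' 1) * monomial e 1 := by
    conv_lhs => rw [show (monomial (e + e') (1 : A)) = monomial e 1 * monomial e' 1 by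
      rw [monomial_mul, one_mul]]
    ring
  rw [Tri, h, map_add]
  exact (Low.mul hp hq.low le_rfl).add (Low.mul hq (low_monomial e 1) (by rw [add_comm]))

theorem tri_one : Tri 0 (1 : MvPolynomial (Fin n) A) := tri_monomial 0

theorem Tri.pow {e : Fin n →₀ ℕ} {p : MvPolynomial (Fin n) A} (h : Tri e p) :
    ∀ k : ℕ, Tri (k • e) (p ^ k)
  | 0 => by rw [zero_smul, pow_zero]; exact tri_one
  | k + 1 => by rw [succ_nsmul, pow_succ]; exact (h.pow k).mul h

theorem tri_prod {ι : Type*} (s : Finset ι) (e : ι → Fin n →₀ ℕ) (p : ι → MvPolynomial (Fin n) A)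
    (h : ∀ i ∈ s, Tri (e i) (p i)) : Tri (∑ i ∈ s, e i) (∏ i ∈ s, p i) := by
  classical
  induction s using Finset.induction_on with
  | empty => exact tri_one
  | insert i s hi ih =>
    rw [Finset.sum_insert hi, Finset.prod_insert hi]
    exact (h i (Finset.mem_insert_self i s)).mul (ih fun j hj => h j (Finset.mem_insert_of_mem hj))

variable (N : Fin n → ℕ) (f : Fin n → MvPolynomial (Fin n) A)

/-- The remainder exponent. -/
def rem (e : Fin n →₀ ℕ) : Fin n →₀ ℕ := Finsupp.equivFunOnFinite.symm fun i => e i % N i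

theorem rem_apply (e : Fin n →₀ ℕ) (i : Fin n) : rem N e i = e i % N i := rfl

/-- The adapted monomial. -/
def mon (e : Fin n →₀ ℕ) : MvPolynomial (Fin n) A :=
  monomial (rem N e) 1 * ∏ i, f i ^ (e i / N i)

/-- The triangular change of basis. -/
def phi : MvPolynomial (Fin n) A →ₗ[A] MvPolynomial (Fin n) A :=
  (basisMonomials (Fin n) A).constr A (mon N f)

theorem phi_monomial (e : Fin n →₀ ℕ) : phi N f (monomial e 1) = mon N f e := by
  have := (basisMonomials (Fin n) A).constr_basis A (mon N f) e
  rwa [coe_basisMonomials] at this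

theorem monomial_eq_smul (e : Fin n →₀ ℕ) (c : A) :
    monomial e c = c • (monomial e 1 : MvPolynomial (Fin n) A) := by
  rw [smul_monomial, smul_eq_mul, mul_one]

theorem phi_eq_sum (p : MvPolynomial (Fin n) A) :
    phi N f p = ∑ e ∈ p.support, coeff e p • mon N f e := by
  conv_lhs => rw [p.as_sum]
  rw [map_sum]
  exact Finset.sum_congr rfl fun e _ => by rw [monomial_eq_smul, map_smul, phi_monomial]

variable (hN : ∀ i, 0 < N i)
  (hf : ∀ i, Low (N i) (f i - X i ^ N i))

include hf

theorem tri_f (i : Fin n) : Tri (Finsupp.single i (N i)) (f i) := by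
  rw [Tri, Finsupp.degree_single, ← X_pow_eq_monomial]
  exact hf i

theorem tri_mon (e : Fin n →₀ ℕ) : Tri e (mon N f e) := by
  have h := (tri_monomial (A := A) (rem N e)).mul
    (tri_prod Finset.univ _ _ fun i _ => (tri_f N f hf i).pow (e i / N i))
  have he : rem N e + ∑ i, (e i / N i) • Finsupp.single i (N i) = e := by
    ext j
    simp [rem_apply, Finsupp.single_apply, mul_comm, Nat.mod_add_div]
  rwa [he] at h

theorem low_phi_sub {d : ℕ} {p : MvPolynomial (Fin n) A} (hp : Low (d + 1) p) :
    Low d (phi N f p - p) := by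
  conv =>
    arg 2; arg 2; rw [p.as_sum]
  rw [phi_eq_sum, ← Finset.sum_sub_distrib]
  refine low_sum _ _ fun e he => ?_
  rw [monomial_eq_smul e (coeff e p), ← smul_sub]
  refine fun x hx => ?_
  exact ((tri_mon N f hf e).mono (Nat.lt_succ_iff.mp (hp e he))) x (support_smul hx)

theorem exists_phi_eq : ∀ (d : ℕ) (p : MvPolynomial (Fin n) A), Low d p →
    ∃ p', phi N f p' = p ∧ Low (d - 1) (p' - p)
  | 0, p, hp => by
    have : p = 0 := support_eq_empty.mp (Finset.eq_empty_iff_forall_notMem.mpr fun e he =>
      Nat.not_lt_zero _ (hp e he))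
    exact ⟨0, by rw [map_zero, this], by rw [this, sub_zero]; exact low_zero _⟩
  | d + 1, p, hp => by
    obtain ⟨q, hq, hlow⟩ := exists_phi_eq d (p - phi N f p)
      (by simpa using (low_phi_sub N f hf hp).neg)
    refine ⟨p + q, by rw [map_add, hq, add_sub_cancel], ?_⟩
    rw [add_sub_cancel_left, Nat.add_sub_cancel]
    have := (hlow.mono (Nat.sub_le d 1)).add
      (show Low d (p - phi N f p) by simpa using (low_phi_sub N f hf hp).neg)
    rwa [sub_add_cancel] at this

theorem phi_injective : Function.Injective (phi N f) := by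
  rw [injective_iff_map_eq_zero]
  intro p hp
  have key : ∀ d, Low d p → p = 0 := by
    intro d
    induction d with
    | zero =>
      exact fun h => support_eq_empty.mp (Finset.eq_empty_iff_forall_notMem.mpr fun e he =>
        Nat.not_lt_zero _ (h e he))
    | succ d ih =>
      intro h
      have := (low_phi_sub N f hf h).neg
      rw [hp, zero_sub, neg_neg] at this
      exact ih this
  exact key _ (low_totalDegree p)

theorem phi_surjective : Function.Surjective (phi N f) := fun p =>
  let ⟨q, hq, _⟩ := exists_phi_eq N f hf _ p (low_totalDegree p)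
  ⟨q, hq⟩

omit hf

/-- The top exponent of the box. -/
def top : Fin n →₀ ℕ := Finsupp.equivFunOnFinite.symm fun i => N i - 1

theorem top_apply (i : Fin n) : top N i = N i - 1 := rfl

theorem mon_mul_f (hN : ∀ i, 0 < N i) (i : Fin n) (e : Fin n →₀ ℕ) :
    mon N f (Finsupp.single i (N i) + e) = f i * mon N f e := by
  classical
  have hr : rem N (Finsupp.single i (N i) + e) = rem N e := by
    ext j
    rw [rem_apply, rem_apply, Finsupp.add_apply, Finsupp.single_apply]
    split_ifs with h
    · subst h; rw [Nat.add_mod_left]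
    · rw [zero_add]
  rw [mon, mon, hr, mul_left_comm]
  congr 1
  rw [← Finset.prod_erase_mul _ _ (Finset.mem_univ i), ← Finset.prod_erase_mul _ _ (Finset.mem_univ i),
    mul_left_comm (f i)]
  rw [Finsupp.add_apply, Finsupp.single_eq_same, Nat.add_div_left _ (hN i), pow_succ']
  congr 1
  refine Finset.prod_congr rfl fun j hj => ?_
  rw [Finsupp.add_apply, Finsupp.single_eq_of_ne (Finset.ne_of_mem_erase hj), zero_add]

theorem phi_mul_f (hN : ∀ i, 0 < N i) (i : Fin n) (p : MvPolynomial (Fin n) A) :
    phi N f (monomial (Finsupp.single i (N i)) 1 * p) = f i * phi N f p := by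
  induction p using MvPolynomial.induction_on' with
  | monomial e c =>
    rw [monomial_mul, one_mul, monomial_eq_smul, map_smul, phi_monomial, mon_mul_f N f hN,
      monomial_eq_smul e c, map_smul, phi_monomial, mul_smul_comm]
  | add p q hp hq => rw [mul_add, map_add, hp, hq, map_add, mul_add]

include hN hf

/-- The top coefficient, a linear form killing the ideal. -/
theorem exists_topForm : ∃ l : MvPolynomial (Fin n) A →ₗ[A] A,
    (∀ p ∈ Ideal.span (Set.range f), l p = 0) ∧
      ∀ p, Low ((top N).degree + 1) p → l p = coeff (top N) p := by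
  let e := LinearEquiv.ofBijective (phi N f) ⟨phi_injective N f hf, phi_surjective N f hf⟩
  refine ⟨(lcoeff A (top N)).comp e.symm.toLinearMap, fun p hp => ?_, fun p hp => ?_⟩
  · have key : ∀ (i : Fin n) (q : MvPolynomial (Fin n) A),
        (lcoeff A (top N)).comp e.symm.toLinearMap (f i * q) = 0 := by
      intro i q
      obtain ⟨q', rfl⟩ := phi_surjective N f hf q
      rw [← phi_mul_f N f hN]
      show coeff (top N) (e.symm (e _)) = 0
      rw [LinearEquiv.symm_apply_apply, coeff_monomial_mul', if_neg]
      intro h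
      have h1 := h i
      rw [Finsupp.single_eq_same, top_apply] at h1
      have := hN i
      omega
    obtain ⟨c, rfl⟩ := (Submodule.mem_span_range_iff_exists_fun _).mp hp
    rw [map_sum]
    exact Finset.sum_eq_zero fun i _ => by rw [smul_eq_mul, mul_comm]; exact key i _
  · obtain ⟨q, hq, hlow⟩ := exists_phi_eq N f hf _ p hp
    show coeff (top N) (e.symm p) = _
    rw [← hq, show phi N f q = e q from rfl, LinearEquiv.symm_apply_apply]
    have h0 := coeff_eq_zero_of_low hlow (e := top N) (by omega)
    change lcoeff A (top N) (q - p) = 0 at h0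
    rw [map_sub, sub_eq_zero] at h0
    rw [show e q = p from hq]
    exact h0

/-- Modulo the ideal every polynomial is a combination of box monomials. -/
theorem exists_box (p : MvPolynomial (Fin n) A) :
    ∃ b : MvPolynomial (Fin n) A, (∀ e ∈ b.support, ∀ i, e i < N i) ∧
      p - b ∈ Ideal.span (Set.range f) := by
  classical
  obtain ⟨q, rfl⟩ := phi_surjective N f hf p
  let s := q.support.filter fun e => ∀ i, e i < N i
  refine ⟨∑ e ∈ s, monomial e (coeff e q), fun e he => ?_, ?_⟩
  · obtain ⟨e', he', h⟩ := Finset.mem_biUnion.mp (support_sum he)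
    rw [Finset.mem_singleton.mp (support_monomial_subset h)]
    exact (Finset.mem_filter.mp he').2
  · rw [phi_eq_sum, ← Finset.sum_filter_add_sum_filter_not q.support (fun e => ∀ i, e i < N i),
      add_sub_right_comm]
    refine add_mem ?_ (Ideal.sum_mem _ fun e he => ?_)
    swap
    · obtain ⟨i, hi⟩ := not_forall.mp (Finset.mem_filter.mp he).2
      rw [smul_eq_C_mul, mon, ← Finset.prod_erase_mul _ _ (Finset.mem_univ i)]
      refine Ideal.mul_mem_left _ _ (Ideal.mul_mem_left _ _ (Ideal.mul_mem_left _ _
        (Ideal.pow_mem_of_mem (Ideal.span (Set.range f)) (Ideal.subset_span (Set.mem_range_self i)) _ ?_)))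
      exact Nat.div_pos (not_lt.mp hi) (hN i)
    · rw [← Finset.sum_sub_distrib]
      refine Ideal.sum_mem _ fun e he => ?_
      have hb := (Finset.mem_filter.mp he).2
      have : mon N f e = monomial e 1 := by
        rw [mon, Finset.prod_eq_one fun i _ => by rw [Nat.div_eq_of_lt (hb i), pow_zero], mul_one]
        congr 2
        ext i
        rw [rem_apply, Nat.mod_eq_of_lt (hb i)]
      rw [this, ← monomial_eq_smul, sub_self]
      exact zero_mem _

/-- The quotient is a finite module. -/
theorem finite_quotient : Module.Finite A (MvPolynomial (Fin n) A ⧸ Ideal.span (Set.range f)) := by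
  classical
  let π := (Ideal.Quotient.mkₐ A (Ideal.span (Set.range f))).toLinearMap
  let g : (∀ i, Fin (N i)) → MvPolynomial (Fin n) A ⧸ Ideal.span (Set.range f) := fun e =>
    π (monomial (Finsupp.equivFunOnFinite.symm fun i => (e i : ℕ)) 1)
  refine ⟨Submodule.fg_def.mpr ⟨_, Set.finite_range g, Submodule.eq_top_iff'.mpr fun x => ?_⟩⟩
  obtain ⟨p, rfl⟩ := Ideal.Quotient.mk_surjective x
  obtain ⟨b, hb, h⟩ := exists_box N f hN hf p
  rw [Ideal.Quotient.eq.mpr h]
  show π b ∈ _
  rw [b.as_sum, map_sum]
  refine Submodule.sum_mem _ fun e he => ?_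
  rw [monomial_eq_smul, map_smul]
  refine Submodule.smul_mem _ _ (Submodule.subset_span ⟨fun i => ⟨e i, hb e he i⟩, ?_⟩)
  show π (monomial _ 1) = _
  rw [show (Finsupp.equivFunOnFinite.symm fun i => e i) = e from Finsupp.ext fun i => rfl]

/-- Over a field the socle at the origin is at most a line, detected by the top coefficient. -/
theorem mem_of_socle [NoZeroDivisors A] (l : MvPolynomial (Fin n) A →ₗ[A] A)
    (hl : ∀ p ∈ Ideal.span (Set.range f), l p = 0)
    (hlow : ∀ p, Low ((top N).degree + 1) p → l p = coeff (top N) p)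
    {a : MvPolynomial (Fin n) A} (ha : ∀ i, a * X i ∈ Ideal.span (Set.range f)) (hla : l a = 0) :
    a ∈ Ideal.span (Set.range f) := by
  classical
  obtain ⟨b, hb, hab⟩ := exists_box N f hN hf a
  suffices hb0 : b = 0 by rwa [hb0, sub_zero] at hab
  by_contra hne
  obtain ⟨e, he, hmax⟩ := b.support.exists_max_image Finsupp.degree
    (support_nonempty.mpr hne)
  have hle : e ≤ top N := fun i => by
    have := hb e he i
    rw [top_apply]
    omega
  set c := top N - e
  have hc : c + e = top N := tsub_add_cancel_of_le hle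
  have hdeg : Low ((top N).degree + 1) (b * monomial c (1 : A)) := by
    refine Low.mul (a := e.degree + 1) (fun x hx => Nat.lt_succ_of_le (hmax x hx))
      (low_monomial c 1) ?_
    rw [← hc, map_add]
    omega
  have h1 := hlow _ hdeg
  rw [coeff_mul_monomial', if_pos (le_iff_exists_add.mpr ⟨e, hc.symm⟩), ← hc, mul_one,
    add_tsub_cancel_left] at h1
  refine mem_support_iff.mp he (h1.symm.trans ?_)
  have hba : l ((b - a) * monomial c (1 : A)) = 0 :=
    hl _ (Ideal.mul_mem_right _ _ (by rw [← neg_sub]; exact neg_mem hab))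
  rw [sub_mul, map_sub, sub_eq_zero] at hba
  rw [hba]
  by_cases hc0 : c = 0
  · rw [hc0, monomial_zero', C_1, mul_one, hla]
  · obtain ⟨i, hi⟩ := Finsupp.ne_iff.mp hc0
    refine hl _ ?_
    have hsplit : c = Finsupp.single i 1 + (c - Finsupp.single i 1) :=
      (add_tsub_cancel_of_le (Finsupp.single_le_iff.mpr (Nat.pos_of_ne_zero hi))).symm
    rw [hsplit, ← one_mul (1 : A), ← monomial_mul, ← mul_assoc]
    exact Ideal.mul_mem_right _ _ (ha i)

end Fermat.Agent.R59.Box
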