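/-
S59, unit D: the numerical invariants of a point of a finite algebra over a discrete valuation ring.
-/
import Mathlib.RingTheory.Ideal.Cotangent
import Mathlib.RingTheory.DiscreteValuationRing.Basic
import Mathlib.RingTheory.Length
import Mathlib.LinearAlgebra.Dual.Defs

set_option autoImplicit false

noncomputable section

namespace Fermat.Agent.R59

variable {O R : Type} [CommRing O] [CommRing R] [Algebra O R] (π : R →ₐ[O] O)

/-- `Φ = ℘/℘²` for the kernel `℘` of a point. -/
abbrev Cot : Type := (RingHom.ker π.toRingHom).Cotangent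

/-- `len_O Φ`. -/
def cotLen : ℕ∞ := Module.length O (Cot π)

/-- The congruence ideal `π(Ann ℘)`. -/
def eta : Ideal O :=
  Ideal.map π.toRingHom (Submodule.annihilator (RingHom.ker π.toRingHom : Submodule R R))

variable (M : Type) [AddCommGroup M] [Module O M] [Module R M] [IsScalarTower O R M]

/-- The eigenvectors `M[℘]`. -/
def eigen : Submodule O M where
  carrier := {m | ∀ r : R, r • m = π r • m}
  add_mem' {a b} ha hb r := by rw [smul_add, smul_add, ha r, hb r]
  zero_mem' r := by rw [smul_zero, smul_zero]
  smul_mem' c m hm r := by rw [smul_comm, hm r, smul_comm]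

/-- The eigenfunctionals `M^∨[℘]`. -/
def coEigen : Submodule O (Module.Dual O M) where
  carrier := {f | ∀ (r : R) (m : M), f (r • m) = π r * f m}
  add_mem' {a b} ha hb r m := by
    rw [LinearMap.add_apply, LinearMap.add_apply, ha r m, hb r m, mul_add]
  zero_mem' r m := by simp
  smul_mem' c f hf r m := by
    rw [LinearMap.smul_apply, LinearMap.smul_apply, hf r m, smul_eq_mul, smul_eq_mul,
      mul_left_comm]

/-- Evaluation `M[℘] → Hom(M^∨[℘], O)`. -/
def pairingMap : eigen π M →ₗ[O] Module.Dual O (coEigen π M) where
  toFun m :=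
    { toFun := fun f => (f : Module.Dual O M) (m : M)
      map_add' := fun _ _ => rfl
      map_smul' := fun _ _ => rfl }
  map_add' a b := LinearMap.ext fun f => map_add (f : Module.Dual O M) _ _
  map_smul' c a := LinearMap.ext fun f => map_smul (f : Module.Dual O M) _ _

/-- `len_O Ω`, `Ω` the cokernel of `pairingMap`. -/
def omegaLen : ℕ∞ :=
  Module.length O (Module.Dual O (coEigen π M) ⧸ LinearMap.range (pairingMap π M))

end Fermat.Agent.R59
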