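/-
S59: the invariant of a module depends only on the eigenspaces.
-/
import Fermat.Agent.R59.Crit.Defs

set_option autoImplicit false

noncomputable section

namespace Fermat.Agent.R59

/-- Equal eigenspaces give equal cokernels. -/
theorem omegaLen_congr {O R R' M : Type} [CommRing O] [CommRing R] [Algebra O R] [CommRing R']
    [Algebra O R'] [AddCommGroup M] [Module O M] [Module R M] [IsScalarTower O R M] [Module R' M]
    [IsScalarTower O R' M] {π : R →ₐ[O] O} {π' : R' →ₐ[O] O} (he : eigen π M = eigen π' M)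
    (hc : coEigen π M = coEigen π' M) : omegaLen π M = omegaLen π' M := by
  let e := (LinearEquiv.ofEq _ _ hc).dualMap
  have h₁ : ∀ m : eigen π M, (m : M) ∈ eigen π' M := fun m => he ▸ m.2
  have h₂ : ∀ m : eigen π' M, (m : M) ∈ eigen π M := fun m => he.symm ▸ m.2
  refine ((Submodule.Quotient.equiv (LinearMap.range (pairingMap π' M))
    (LinearMap.range (pairingMap π M)) e ?_).length_eq).symm
  apply le_antisymm
  · rintro _ ⟨_, ⟨m, rfl⟩, rfl⟩
    exact ⟨⟨(m : M), h₂ m⟩, rfl⟩
  · rintro _ ⟨m, rfl⟩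
    exact ⟨pairingMap π' M ⟨(m : M), h₁ m⟩, ⟨_, rfl⟩, rfl⟩

end Fermat.Agent.R59
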