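/-
S59, units D and G: a matrix carrying the variables to pure powers of them has a determinant with top
coefficient one, so it is non-zero modulo these powers (Tate's lemma in the case needed).
-/
import Fermat.Agent.Patching.Descent
import Mathlib.LinearAlgebra.Matrix.Adjugate

set_option autoImplicit false
set_option linter.unusedSectionVars false

noncomputable section

namespace Fermat.Agent.R59.Jacobian

open MvPowerSeries

variable {n : ℕ} {k : Type} [CommRing k]

/-- A series in the ideal of some monomials has no coefficient below an exponent avoiding them. -/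
theorem coeff_eq_zero_of_mem_span {G : Set (Fin n →₀ ℕ)} {e : Fin n →₀ ℕ}
    (hG : ∀ d ∈ G, ¬ d ≤ e) {x : MvPowerSeries (Fin n) k}
    (hx : x ∈ Ideal.span ((fun d => monomial d (1 : k)) '' G)) :
    ∀ e' ≤ e, coeff e' x = 0 := by
  classical
  induction hx using Submodule.span_induction with
  | mem y hy =>
    intro e' he'
    obtain ⟨d, hd, rfl⟩ := hy
    show coeff e' (monomial d (1 : k)) = 0
    rw [coeff_monomial, if_neg]
    intro h
    exact hG d hd (h ▸ he')
  | zero => exact fun e' _ => map_zero _
  | add y z _ _ hy hz => exact fun e' he' => by rw [map_add, hy e' he', hz e' he', add_zero]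
  | smul c y _ hy =>
    intro e' he'
    rw [smul_eq_mul, coeff_mul]
    refine Finset.sum_eq_zero fun q hq => ?_
    rw [hy q.2 (le_trans ?_ he'), mul_zero]
    rw [← Finset.mem_antidiagonal.mp hq]
    exact le_add_self

/-- The box exponent on a set of variables. -/
def boxTop (N : Fin n → ℕ) (s : Finset (Fin n)) : Fin n →₀ ℕ :=
  Finsupp.equivFunOnFinite.symm fun i => if i ∈ s then N i - 1 else 0

theorem boxTop_apply (N : Fin n → ℕ) (s : Finset (Fin n)) (i : Fin n) :
    boxTop N s i = if i ∈ s then N i - 1 else 0 := rfl

/-- The truncated vector of variables. -/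
def vars (s : Finset (Fin n)) : Fin n → MvPowerSeries (Fin n) k :=
  fun j => if j ∈ s then X j else 0

variable (N : Fin n → ℕ)

/-- The exponents of the monomials killed at a stage. -/
def killed (s : Finset (Fin n)) : Set (Fin n →₀ ℕ) := {d | ∃ l ∉ s, d = Finsupp.single l 1}

theorem det_updateRow_updateCol (M : Matrix (Fin n) (Fin n) (MvPowerSeries (Fin n) k)) (a : Fin n) :
    ((M.updateRow a (Pi.single a 1)).updateCol a (Pi.single a 1)).det =
      (M.updateRow a (Pi.single a 1)).det := by
  set A := M.updateRow a (Pi.single a 1) with hA
  have h1 : (A.updateCol a (Pi.single a 1)).det = A.adjugate a a := by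
    conv_rhs => rw [← Matrix.transpose_transpose A, ← Matrix.adjugate_transpose,
      Matrix.transpose_apply, Matrix.adjugate_apply, ← Matrix.det_transpose,
      Matrix.updateRow_transpose, Matrix.transpose_transpose]
  rw [h1, Matrix.adjugate_apply, hA, Matrix.updateRow_idem]

/-- The top coefficient of the determinant is one. -/
theorem coeff_det_eq_one (hN : ∀ i, 0 < N i) (s : Finset (Fin n)) :
    ∀ M : Matrix (Fin n) (Fin n) (MvPowerSeries (Fin n) k),
      (∀ i j, i ∉ s ∨ j ∉ s → M i j = if i = j then 1 else 0) →
      (∀ i ∈ s, M.mulVec (vars s) i - X i ^ N i ∈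
        Ideal.span ((fun d => monomial d (1 : k)) '' killed s)) →
      coeff (boxTop N s) M.det = 1 := by
  classical
  induction s using Finset.induction_on with
  | empty =>
    intro M hM _
    have : M = 1 := Matrix.ext fun i j => by
      rw [hM i j (Or.inl (Finset.notMem_empty i)), Matrix.one_apply]
    rw [this, Matrix.det_one, show boxTop N (∅ : Finset (Fin n)) = 0 from Finsupp.ext fun i => by
      simp [boxTop_apply], coeff_zero_one]
  | insert a s ha ih =>
    intro M hM hMX
    set g := M.mulVec (vars (insert a s)) with hg
    have hg0 : ∀ i ∉ insert a s, g i = 0 := fun i hi => by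
      rw [hg, Matrix.mulVec, dotProduct]
      refine Finset.sum_eq_zero fun j _ => ?_
      rw [hM i j (Or.inl hi)]
      by_cases hij : i = j
      · subst hij; rw [vars, if_neg hi, mul_zero]
      · rw [if_neg hij, zero_mul]
    have hadj : M.det * X a = ∑ i, M.adjugate a i * g i := by
      have := congrFun (congrArg (fun A => Matrix.mulVec A (vars (insert a s))) M.adjugate_mul) a
      simp only [← Matrix.mulVec_mulVec, Matrix.smul_mulVec, Matrix.one_mulVec, Pi.smul_apply,
        smul_eq_mul] at this
      rw [show vars (k := k) (insert a s) a = X a from if_pos (Finset.mem_insert_self a s)] at this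
      rw [← this]
      rfl
    -- the minor
    set M' := (M.updateRow a (Pi.single a 1)).updateCol a (Pi.single a 1) with hM'def
    have hM'ap : ∀ i j, M' i j =
        if j = a then (if i = a then 1 else 0) else if i = a then 0 else M i j := fun i j => by
      rw [hM'def, Matrix.updateCol_apply, Matrix.updateRow_apply, Pi.single_apply, Pi.single_apply]
      split_ifs <;> simp_all
    have hM' : coeff (boxTop N s) M'.det = 1 := by
      refine ih M' (fun i j hij => ?_) fun i hi => ?_
      · rw [hM'ap]
        by_cases hja : j = a
        · subst hja
          simp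
        · rw [if_neg hja]
          by_cases hia : i = a
          · subst hia
            rw [if_pos rfl, if_neg (Ne.symm hja)]
          · rw [if_neg hia]
            exact hM i j (hij.imp (fun h h' => h (Finset.mem_of_mem_insert_of_ne h' hia))
              (fun h h' => h (Finset.mem_of_mem_insert_of_ne h' hja)))
      · have hia : i ≠ a := fun h => ha (h ▸ hi)
        have e : M'.mulVec (vars s) i = g i - M i a * X a := by
          rw [hg, Matrix.mulVec, Matrix.mulVec, dotProduct, dotProduct,
            ← Finset.sum_erase_add _ _ (Finset.mem_univ a),
            ← Finset.sum_erase_add Finset.univ _ (Finset.mem_univ a),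
            show vars (k := k) s a = 0 from if_neg ha,
            show vars (k := k) (insert a s) a = X a from if_pos (Finset.mem_insert_self a s),
            mul_zero, add_zero, add_sub_cancel_right]
          refine Finset.sum_congr rfl fun j hj => ?_
          have hja := Finset.ne_of_mem_erase hj
          rw [hM'ap, if_neg hja, if_neg hia]
          simp only [vars, Finset.mem_insert, hja, false_or]
        rw [e, sub_right_comm]
        refine sub_mem (Ideal.span_mono (Set.image_mono ?_) (hMX i (Finset.mem_insert_of_mem hi))) ?_
        · rintro d ⟨l, hl, rfl⟩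
          exact ⟨l, fun h => hl (Finset.mem_insert_of_mem h), rfl⟩
        · exact Ideal.mul_mem_left _ _ (Ideal.subset_span ⟨_, ⟨a, ha, rfl⟩, rfl⟩)
    have hcof : M.adjugate a a = M'.det := by
      rw [Matrix.adjugate_apply, hM'def, det_updateRow_updateCol]
    -- modulo the monomials
    set G : Set (Fin n →₀ ℕ) :=
      killed (insert a s) ∪ {d | ∃ i ∈ s, d = Finsupp.single i (N i)} with hG
    set I := Ideal.span ((fun d => monomial d (1 : k)) '' G) with hI
    have hKI : Ideal.span ((fun d => monomial d (1 : k)) '' killed (insert a s)) ≤ I :=
      Ideal.span_mono (Set.image_mono Set.subset_union_left)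
    have key : M.det * X a - X a ^ N a * M'.det ∈ I := by
      rw [hadj, ← Finset.sum_erase_add _ _ (Finset.mem_univ a), add_sub_assoc, hcof,
        mul_comm (X a ^ N a), ← mul_sub]
      refine add_mem (Ideal.sum_mem _ fun i hi => Ideal.mul_mem_left _ _ ?_)
        (Ideal.mul_mem_left _ _ (hKI (hMX a (Finset.mem_insert_self a s))))
      by_cases his : i ∈ s
      · rw [← sub_add_cancel (g i) (X i ^ N i)]
        refine add_mem (hKI (hMX i (Finset.mem_insert_of_mem his))) (Ideal.subset_span ?_)
        exact ⟨_, Or.inr ⟨i, his, rfl⟩, (X_pow_eq i (N i)).symm⟩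
      · rw [hg0 i fun h => his (Finset.mem_of_mem_insert_of_ne h (Finset.ne_of_mem_erase hi))]
        exact zero_mem _
    have hsplit : boxTop N (insert a s) + Finsupp.single a 1 =
        Finsupp.single a (N a) + boxTop N s := Finsupp.ext fun i => by
      simp only [Finsupp.add_apply, boxTop_apply, Finsupp.single_apply, Finset.mem_insert]
      rcases eq_or_ne a i with rfl | h
      · have := hN a
        simp [ha]
        omega
      · simp [h, Ne.symm h]
    have h0 := coeff_eq_zero_of_mem_span (e := boxTop N (insert a s) + Finsupp.single a 1) ?_ key _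
      le_rfl
    · rw [map_sub, sub_eq_zero] at h0
      rw [show (X a : MvPowerSeries (Fin n) k) = monomial (Finsupp.single a 1) 1 from rfl,
        coeff_add_mul_monomial, mul_one] at h0
      rw [h0, hsplit, ← show (X a : MvPowerSeries (Fin n) k) = monomial (Finsupp.single a 1) 1 from rfl,
        X_pow_eq, coeff_add_monomial_mul, one_mul]
      exact hM'
    · rintro d (⟨l, hl, rfl⟩ | ⟨i, hi, rfl⟩) hle
      · have := hle l
        simp only [Finsupp.single_eq_same, Finsupp.add_apply, boxTop_apply, if_neg hl,
          Finsupp.single_apply] at this
        rw [if_neg fun h => hl (by subst h; exact Finset.mem_insert_self a s)] at this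
        omega
      · have := hle i
        simp only [Finsupp.single_eq_same, Finsupp.add_apply, boxTop_apply,
          if_pos (Finset.mem_insert_of_mem hi), Finsupp.single_apply] at this
        rw [if_neg fun h => ha (by subst h; exact hi)] at this
        have := hN i
        omega

/-- A matrix carrying the variables to their powers has determinant outside the ideal of these. -/
theorem det_not_mem [Nontrivial k] (hN : ∀ i, 0 < N i)
    (M : Matrix (Fin n) (Fin n) (MvPowerSeries (Fin n) k))
    (hM : ∀ i, M.mulVec X i = X i ^ N i) :
    M.det ∉ Ideal.span (Set.range fun i => (X i : MvPowerSeries (Fin n) k) ^ N i) := by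
  intro h
  have h1 := coeff_det_eq_one N hN Finset.univ M
    (fun i j hij => absurd (hij.elim (fun h => h (Finset.mem_univ i)) fun h => h (Finset.mem_univ j)) id)
    fun i _ => by
      rw [show vars (k := k) (Finset.univ : Finset (Fin n)) = X from
        funext fun j => if_pos (Finset.mem_univ j), hM i, sub_self]
      exact zero_mem _
  have h2 := coeff_eq_zero_of_mem_span (G := Set.range fun i => Finsupp.single i (N i))
    (e := boxTop N Finset.univ) ?_ (x := M.det) ?_ _ le_rfl
  · rw [h1] at h2
    exact one_ne_zero h2
  · rintro _ ⟨i, rfl⟩ hle
    have := hle i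
    simp only [Finsupp.single_eq_same, boxTop_apply, Finset.mem_univ, if_true] at this
    have := hN i
    omega
  · rw [← Set.range_comp]
    convert h using 3
    funext i
    exact (X_pow_eq i (N i)).symm

end Fermat.Agent.R59.Jacobian
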