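/-
S59, unit D: relations of a point adapted to a Smith basis of its cotangent space.
-/
import Fermat.Agent.R59.Crit.Box
import Fermat.Agent.R59.Crit.Defs
import Mathlib.RingTheory.OrderOfVanishing.Basic
import Mathlib.LinearAlgebra.FreeModule.Finite.Quotient
import Mathlib.RingTheory.IntegralClosure.IsIntegralClosure.Basic
import Mathlib.RingTheory.DedekindDomain.Basic
import Mathlib.RingTheory.Noetherian.Basic

set_option autoImplicit false
set_option linter.unusedSectionVars false
set_option linter.style.haveILetI false

noncomputable section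

namespace Fermat.Agent.R59

open MvPolynomial

variable {O R : Type} [CommRing O] [IsDomain O] [IsDiscreteValuationRing O]
  [CommRing R] [Algebra O R]

theorem ord_prod {ι : Type*} (s : Finset ι) (a : ι → O) (ha : ∀ i ∈ s, a i ≠ 0) :
    Ring.ord O (∏ i ∈ s, a i) = ∑ i ∈ s, Ring.ord O (a i) := by
  classical
  induction s using Finset.induction_on with
  | empty => simp
  | insert i s hi ih =>
    rw [Finset.prod_insert hi, Finset.sum_insert hi,
      Ring.ord_mul' O (mem_nonZeroDivisors_of_ne_zero (ha i (Finset.mem_insert_self i s))),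
      ih fun j hj => ha j (Finset.mem_insert_of_mem hj)]

/-- A module of finite length over a discrete valuation ring is torsion. -/
theorem exists_smul_eq_zero_of_length {Q : Type} [AddCommGroup Q] [Module O Q]
    (h : Module.length O Q ≠ ⊤) (z : Q) : ∃ c : O, c ≠ 0 ∧ c • z = 0 := by
  by_contra hc
  push Not at hc
  have hinj : Function.Injective (LinearMap.toSpanSingleton O Q z) := by
    rw [injective_iff_map_eq_zero]
    intro c hcz
    by_contra h0
    exact hc c h0 hcz
  have : IsArtinian O Q := (isFiniteLength_iff_isNoetherian_isArtinian.mp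
    (Module.length_ne_top_iff.mp h)).2
  have : IsArtinianRing O := isArtinian_of_injective _ hinj
  exact IsDiscreteValuationRing.not_isField O (IsArtinianRing.isField_of_isDomain O)

/-- The relations of a point. -/
structure Relations (π : R →ₐ[O] O) where
  n : ℕ
  x : Fin n → R
  hx : ∀ i, π (x i) = 0
  a : Fin n → O
  ha : ∀ i, a i ≠ 0
  ord : Ring.ord O (∏ i, a i) = cotLen π
  N : Fin n → ℕ
  hN : ∀ i, 0 < N i
  f : Fin n → MvPolynomial (Fin n) O
  A : Matrix (Fin n) (Fin n) (MvPolynomial (Fin n) O)
  hf : ∀ i, Box.Low (N i) (f i - X i ^ N i)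
  hfx : ∀ i, aeval x (f i) = 0
  hA : ∀ i, f i = ∑ j, A i j * X j
  hA0 : ∀ i j, constantCoeff (A i j) = if i = j then a i else 0
  span : ∀ r : R, π r = 0 → r ∈ Submodule.span O (Set.range x)

theorem Relations.surjective {π : R →ₐ[O] O} (D : Relations π) :
    Function.Surjective (aeval D.x : MvPolynomial (Fin D.n) O →ₐ[O] R) := fun r => by
  obtain ⟨c, hc⟩ := (Submodule.mem_span_range_iff_exists_fun O).mp
    (D.span (r - algebraMap O R (π r)) (by rw [map_sub, AlgHom.commutes]; exact sub_self _))
  refine ⟨C (π r) + ∑ i, C (c i) * X i, ?_⟩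
  rw [map_add, map_sum, aeval_C]
  simp only [map_mul, aeval_C, aeval_X, ← Algebra.smul_def, hc]
  rw [add_sub_cancel]

/-- Relations exist when the cotangent space has finite length. -/
theorem exists_relations [Module.Finite O R] (π : R →ₐ[O] O) (hlen : cotLen π ≠ ⊤) :
    Nonempty (Relations π) := by
  classical
  set P : Ideal R := RingHom.ker π.toRingHom with hP
  have hmemP : ∀ r, r ∈ P ↔ π r = 0 := fun r => Iff.rfl
  haveI : IsNoetherian O R := isNoetherian_of_isNoetherianRing_of_finite O R
  obtain ⟨n, x0, hx0⟩ := Submodule.fg_iff_exists_fin_generating_family.mp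
    (IsNoetherian.noetherian (P.restrictScalars O))
  have hx0P : ∀ i, x0 i ∈ P := fun i => by
    show x0 i ∈ P.restrictScalars O
    rw [← hx0]
    exact Submodule.subset_span ⟨i, rfl⟩
  let lin : (Fin n → O) →ₗ[O] P :=
    Fintype.linearCombination O fun i => (⟨x0 i, hx0P i⟩ : P)
  have hlin : ∀ v, (lin v : R) = ∑ i, v i • x0 i := fun v => by
    rw [Fintype.linearCombination_apply, Submodule.coe_sum]
    exact Finset.sum_congr rfl fun i _ => rfl
  have hlin' : Function.Surjective lin := fun y => by
    have : (y : R) ∈ Submodule.span O (Set.range x0) := by rw [hx0]; exact y.2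
    obtain ⟨c, hc⟩ := (Submodule.mem_span_range_iff_exists_fun O).mp this
    exact ⟨c, Subtype.ext ((hlin c).trans hc)⟩
  let L : (Fin n → O) →ₗ[O] Cot π := (P.toCotangent.restrictScalars O).comp lin
  have hL : Function.Surjective L := P.toCotangent_surjective.comp hlin'
  let e := LinearMap.quotKerEquivOfSurjective L hL
  have htor : ∀ i : Fin n, ∃ c : O, c ≠ 0 ∧ c • (Pi.single i (1 : O) : Fin n → O) ∈ LinearMap.ker L :=
    fun i => by
      obtain ⟨c, hc, hcz⟩ := exists_smul_eq_zero_of_length hlen (L (Pi.single i 1))
      exact ⟨c, hc, by rw [LinearMap.mem_ker, map_smul, hcz]⟩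
  choose c hc hcK using htor
  have hrank : Module.finrank O (LinearMap.ker L) = Module.finrank O (Fin n → O) := by
    refine le_antisymm (Submodule.finrank_le _) ?_
    let j : (Fin n → O) →ₗ[O] LinearMap.ker L :=
      Fintype.linearCombination O fun i => (⟨_, hcK i⟩ : LinearMap.ker L)
    refine LinearMap.finrank_le_finrank_of_injective (f := j) ?_
    rw [injective_iff_map_eq_zero]
    intro v hv
    funext k
    have h1 := congrArg (fun w : LinearMap.ker L => (w : Fin n → O) k) hv
    simp only [j, Fintype.linearCombination_apply, Submodule.coe_sum, SetLike.val_smul,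
      Finset.sum_apply, Pi.smul_apply, Pi.single_apply, smul_eq_mul, Submodule.coe_zero,
      Pi.zero_apply, mul_ite, mul_one, mul_zero, Finset.sum_ite_eq, Finset.mem_univ, if_true] at h1
    exact (mul_eq_zero.mp h1).resolve_right (hc k)
  let b := Pi.basisFun O (Fin n)
  let a := Submodule.smithNormalFormCoeffs b hrank
  let bM := Submodule.smithNormalFormTopBasis b hrank
  let x : Fin n → R := fun i => (lin (bM i) : R)
  have hxP : ∀ i, x i ∈ P := fun i => (lin (bM i)).2
  have hspan : ∀ r : R, π r = 0 → r ∈ Submodule.span O (Set.range x) := fun r hr => by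
    obtain ⟨v, hv⟩ := hlin' ⟨r, hr⟩
    refine (Submodule.mem_span_range_iff_exists_fun O).mpr ⟨fun i => bM.repr v i, ?_⟩
    have h1 := congrArg (fun y : P => (y : R)) hv
    simp only at h1
    rw [← h1]
    conv_rhs => rw [← bM.sum_repr v, map_sum, Submodule.coe_sum]
    exact Finset.sum_congr rfl fun i _ => by rw [map_smul]; rfl
  have hord : Ring.ord O (∏ i, a i) = cotLen π := by
    rw [ord_prod Finset.univ a fun i _ => Submodule.smithNormalFormCoeffs_ne_zero b hrank i]
    rw [cotLen, ← e.length_eq, ((LinearMap.ker L).quotientEquivPiSpan b hrank).length_eq,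
      Module.length_pi_of_fintype]
    rfl
  have hsq : ∀ i, ∃ c : Fin n → Fin n → O, a i • x i = ∑ j, (∑ k, c j k • x k) * x j := by
    intro i
    have h1 : (lin (a i • bM i) : R) ∈ P ^ 2 := by
      rw [← Ideal.toCotangent_eq_zero]
      have := (Submodule.smithNormalFormBotBasis b hrank i).2
      rw [Submodule.smithNormalFormBotBasis_def b hrank i] at this
      exact LinearMap.mem_ker.mp this
    have hPx : (P : Submodule R R) = Submodule.span R (Set.range x) := by
      refine le_antisymm (fun r hr => ?_) (Submodule.span_le.mpr ?_)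
      · exact Submodule.span_le_restrictScalars O R _ (hspan r hr)
      · rintro _ ⟨i, rfl⟩; exact hxP i
    rw [pow_two] at h1
    have h2 : (lin (a i • bM i) : R) ∈ P • Submodule.span R (Set.range x) := by
      rw [← hPx]; exact h1
    obtain ⟨r, hr, hsum⟩ := (Submodule.mem_ideal_smul_span_iff_exists_sum P x _).mp h2
    choose c hc using fun j => (Submodule.mem_span_range_iff_exists_fun O).mp (hspan (r j) (hr j))
    refine ⟨c, ?_⟩
    rw [map_smul, Submodule.coe_smul_of_tower] at hsum
    rw [← hsum, Finsupp.sum_fintype _ _ (fun j => zero_smul R (x j))]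
    exact Finset.sum_congr rfl fun j _ => by rw [smul_eq_mul, hc j]
  choose q hq using hsq
  have hint : ∀ i, IsIntegral O (x i) := fun i => Algebra.IsIntegral.isIntegral (x i)
  choose h hmon hev using hint
  let D : Fin n → MvPolynomial (Fin n) O := fun i => Polynomial.aeval (X i) (h i)
  let A : Matrix (Fin n) (Fin n) (MvPolynomial (Fin n) O) := fun i j =>
    (if i = j then X i ^ 2 * D i + C (a i) else 0) - ∑ k, C (q i j k) * X k
  have hA : ∀ i, (∑ j, A i j * X j) =
      X i ^ 3 * D i + C (a i) * X i - ∑ j, ∑ k, C (q i j k) * X k * X j := fun i => by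
    simp only [A, sub_mul, Finset.sum_sub_distrib, ite_mul, zero_mul, Finset.sum_ite_eq,
      Finset.mem_univ, if_true, Finset.sum_mul]
    ring
  refine ⟨⟨n, x, hxP, a, Submodule.smithNormalFormCoeffs_ne_zero b hrank, hord,
    fun i => (h i).natDegree + 3, fun i => Nat.succ_pos _, fun i => ∑ j, A i j * X j, A, fun i => ?_,
    fun i => ?_, fun i => rfl, fun i j => ?_, hspan⟩⟩
  · -- degrees
    have hD : D i = X i ^ (h i).natDegree +
        ∑ k ∈ Finset.range (h i).natDegree, C ((h i).coeff k) * X i ^ k := by
      have := congrArg (Polynomial.aeval (X i : MvPolynomial (Fin n) O)) (hmon i).as_sum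
      simp only [map_add, map_pow, Polynomial.aeval_X, map_sum, map_mul, Polynomial.aeval_C,
        MvPolynomial.algebraMap_eq] at this
      exact this
    have hlow : ∀ (e : Fin n →₀ ℕ) (v : O), e.degree < (h i).natDegree + 3 →
        Box.Low ((h i).natDegree + 3) (monomial e v) := fun e v he =>
      (Box.low_monomial e v).mono he
    have key : (∑ j, A i j * X j) - X i ^ ((h i).natDegree + 3) =
        ((∑ k ∈ Finset.range (h i).natDegree, monomial (Finsupp.single i (k + 3)) ((h i).coeff k)) +
          monomial (Finsupp.single i 1) (a i)) +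
          -∑ j, ∑ k, monomial (Finsupp.single k 1 + Finsupp.single j 1) (q i j k) := by
      rw [hA, hD, mul_add, Finset.mul_sum, ← pow_add, Nat.add_comm 3]
      have e1 : ∀ k, X i ^ 3 * (C ((h i).coeff k) * X i ^ k) =
          monomial (Finsupp.single i (k + 3)) ((h i).coeff k) := fun k => by
        rw [mul_left_comm, ← pow_add, Nat.add_comm 3 k, C_mul_X_pow_eq_monomial]
      simp only [e1]
      have e2 : ∀ j k, C (q i j k) * X k * X j =
          monomial (Finsupp.single k 1 + Finsupp.single j 1) (q i j k) := fun j k => by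
        rw [C_mul_X_eq_monomial, X, monomial_mul, mul_one]
      simp only [e2]
      simp only [C_mul_X_eq_monomial]
      abel
    show Box.Low _ _
    rw [key]
    refine ((Box.low_sum _ _ fun k hk => hlow _ _ ?_).add (hlow _ _ ?_)).add
      (Box.Low.neg (Box.low_sum _ _ fun j _ => Box.low_sum _ _ fun k _ => hlow _ _ ?_))
    · rw [Finsupp.degree_single]
      have := Finset.mem_range.mp hk
      omega
    · rw [Finsupp.degree_single]; omega
    · rw [map_add, Finsupp.degree_single, Finsupp.degree_single]; omega
  · -- the relations hold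
    show aeval x (∑ j, A i j * X j) = 0
    rw [hA, map_sub, map_add, map_mul, map_mul, map_pow, aeval_X, aeval_C, ← Algebra.smul_def]
    have hDx : aeval x (D i) = 0 := by
      show aeval x (Polynomial.aeval (X i) (h i)) = 0
      rw [← Polynomial.aeval_algHom_apply, aeval_X]
      exact hev i
    rw [hDx, mul_zero, zero_add, hq i, map_sum, sub_eq_zero]
    refine Finset.sum_congr rfl fun j _ => ?_
    rw [map_sum, Finset.sum_mul]
    exact Finset.sum_congr rfl fun k _ => by
      rw [map_mul, map_mul, aeval_C, aeval_X, aeval_X, Algebra.smul_def]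
  · -- the linear parts
    show constantCoeff ((if i = j then X i ^ 2 * D i + C (a i) else 0) - ∑ k, C (q i j k) * X k) = _
    rw [map_sub, map_sum, Finset.sum_eq_zero fun k _ => by simp, sub_zero]
    split <;> simp

end Fermat.Agent.R59
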