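/-
S59, unit D: Wiles's numerical criterion in Lenstra's form and Diamond's module form of it.

Proof: relations `fᵢ = Xᵢ^Nᵢ + (lower degree)` of `R` with linear parts a Smith basis of `Φ_R`
(`Crit/Relations`) cut out a ring whose reduction at the origin has simple socle (`Crit/Box`); the
image of their determinant is primitive in `T`, so the kernel to `T` is killed by a unit at the
origin.  For a module, the cokernel `Ω` is generated by `d` elements and killed by `η_T` for `T`
the image of `R` in `End M`.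
-/
import Fermat.Agent.R59.Crit.Relations
import Mathlib.RingTheory.LocalRing.ResidueField.Basic
import Mathlib.RingTheory.Artinian.Module
import Mathlib.RingTheory.Finiteness.Nakayama
import Mathlib.LinearAlgebra.Matrix.Adjugate
import Mathlib.LinearAlgebra.FreeModule.PID
import Mathlib.LinearAlgebra.Dual.Lemmas

set_option autoImplicit false
set_option linter.style.haveILetI false

namespace Fermat.Agent.R59

open MvPolynomial IsLocalRing

variable {O : Type} [CommRing O] [IsDomain O] [IsDiscreteValuationRing O]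

theorem ord_ne_top_of_ne_zero {c : O} (hc : c ≠ 0) : Ring.ord O c ≠ ⊤ :=
  Ring.ord_ne_top (mem_nonZeroDivisors_of_ne_zero hc)

theorem length_quotient_ne_top {η : Ideal O} (hη : η ≠ ⊥) : Module.length O (O ⧸ η) ≠ ⊤ := by
  obtain ⟨e, heη, he0⟩ := Submodule.exists_mem_ne_zero_of_ne_bot hη
  have h : Ideal.span {e} ≤ η := (Ideal.span_singleton_le_iff_mem _).mpr heη
  exact ne_top_of_le_ne_top (ord_ne_top_of_ne_zero he0)
    (Module.length_le_of_surjective (Submodule.factor h) (Submodule.factor_surjective h))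

/-- An ideal containing `c` with quotient as long as that of `c` is generated by `c`. -/
theorem le_span_of_length_le {η : Ideal O} (hη : η ≠ ⊥) {c : O} (hc : c ∈ η)
    (h : Ring.ord O c ≤ Module.length O (O ⧸ η)) : η ≤ Ideal.span {c} := by
  have hle : Ideal.span {c} ≤ η := (Ideal.span_singleton_le_iff_mem _).mpr hc
  set g := Submodule.factor hle
  have he := Module.length_eq_add_of_exact (LinearMap.ker g).subtype g
    (Submodule.subtype_injective _) (Submodule.factor_surjective hle)
    (LinearMap.exact_subtype_ker_map g)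
  change Ring.ord O c = _ at he
  rw [he] at h
  have h0 : Module.length O (LinearMap.ker g) = 0 := le_zero_iff.mp
    ((ENat.add_le_add_iff_right (length_quotient_ne_top hη)).mp (h.trans (zero_add _).ge))
  have hss := Module.length_eq_zero_iff.mp h0
  intro e he'
  have hmem : Submodule.Quotient.mk (p := Ideal.span {c}) e ∈ LinearMap.ker g := by
    rw [LinearMap.mem_ker]
    exact (Submodule.Quotient.mk_eq_zero η).mpr he'
  exact (Submodule.Quotient.mk_eq_zero _).mp
    (congrArg Subtype.val (Subsingleton.elim (⟨_, hmem⟩ : LinearMap.ker g) 0))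

/-- Wiles's criterion: a surjection onto a finite flat local algebra with
`len Φ_R ≤ len O/η_T` is injective. -/
theorem injective_of_cotLen_le {R T : Type} [CommRing R] [Algebra O R] [IsLocalRing R]
    [Module.Finite O R] [CommRing T] [Algebra O T] [IsLocalRing T] [Module.Finite O T]
    [Module.IsTorsionFree O T] (σ : R →ₐ[O] T) (hσ : Function.Surjective σ) (π : T →ₐ[O] O)
    (hη : eta π ≠ ⊥) (h : cotLen (π.comp σ) ≤ Module.length O (O ⧸ eta π)) :
    Function.Injective σ := by
  classical
  set πR := π.comp σ with hπR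
  obtain ⟨D⟩ := exists_relations πR (ne_top_of_le_ne_top (length_quotient_ne_top hη) h)
  set ψ : MvPolynomial (Fin D.n) O →ₐ[O] R := aeval D.x
  set φ : MvPolynomial (Fin D.n) O →ₐ[O] T := σ.comp ψ with hφ
  set I : Ideal (MvPolynomial (Fin D.n) O) := Ideal.span (Set.range D.f) with hI
  set J : Ideal (MvPolynomial (Fin D.n) O) := RingHom.ker φ.toRingHom with hJ
  have hψI : ∀ q ∈ I, ψ q = 0 := fun q hq =>
    show q ∈ RingHom.ker ψ.toRingHom from
      Ideal.span_le.mpr (by rintro _ ⟨i, rfl⟩; exact D.hfx i) hq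
  have hφI : ∀ q ∈ I, φ q = 0 := fun q hq => by
    rw [hφ, AlgHom.comp_apply, hψI q hq, map_zero]
  have hev : ∀ q, πR (ψ q) = constantCoeff q := by
    have e : πR.comp ψ = (Algebra.ofId O O).comp (aeval (fun _ => (0 : O))) := by
      refine MvPolynomial.algHom_ext fun i => ?_
      show πR (aeval D.x (X i)) = Algebra.ofId O O (aeval (fun _ => (0 : O)) (X i))
      rw [aeval_X, aeval_X, map_zero]
      exact D.hx i
    intro q
    have := AlgHom.congr_fun e q
    change πR (ψ q) = _ at this
    rw [this]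
    simp [aeval_zero']
  -- the determinant
  set d := D.A.det with hd
  set c := ∏ i, D.a i with hc
  have hc0 : c ≠ 0 := Finset.prod_ne_zero_iff.mpr fun i _ => D.ha i
  have hcd : constantCoeff d = c := by
    rw [hd, RingHom.map_det, show constantCoeff.mapMatrix D.A = Matrix.diagonal D.a from
      Matrix.ext fun i j => by rw [RingHom.mapMatrix_apply, Matrix.map_apply, D.hA0,
        Matrix.diagonal_apply], Matrix.det_diagonal]
  have hdX : ∀ j, d * X j ∈ I := fun j => by
    have hf : D.f = Matrix.mulVec D.A X := funext D.hA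
    have e : Matrix.mulVec D.A.adjugate D.f = fun j => d * X j := by
      rw [hf, Matrix.mulVec_mulVec, Matrix.adjugate_mul, Matrix.smul_mulVec, Matrix.one_mulVec]
      rfl
    rw [← congrFun e j]
    show ∑ i, D.A.adjugate j i * D.f i ∈ I
    exact Ideal.sum_mem _ fun i _ => Ideal.mul_mem_left _ _ (Ideal.subset_span (s := Set.range D.f) ⟨i, rfl⟩)
  have hdT : ∀ t : T, π t = 0 → t * φ d = 0 := fun t ht => by
    obtain ⟨r, rfl⟩ := hσ t
    obtain ⟨b, rfl⟩ := (Submodule.mem_span_range_iff_exists_fun O).mp (D.span r ht)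
    rw [map_sum, Finset.sum_mul]
    refine Finset.sum_eq_zero fun j _ => ?_
    rw [map_smul, smul_mul_assoc, show σ (D.x j) = φ (X j) by
      rw [hφ, AlgHom.comp_apply, aeval_X], ← map_mul, mul_comm, hφI _ (hdX j), smul_zero]
  have hsurjπ : Function.Surjective π.toRingHom := fun o =>
    ⟨algebraMap O T o, π.commutes o⟩
  have heta : ∀ t : T, (∀ t' : T, π t' = 0 → t' * t = 0) → π t ∈ eta π := fun t ht =>
    Ideal.mem_map_of_mem π.toRingHom (Submodule.mem_annihilator.mpr fun t' ht' => by
      rw [smul_eq_mul, mul_comm]; exact ht t' ht')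
  have hπd : π (φ d) = c := by
    rw [hφ, AlgHom.comp_apply, ← hcd, ← hev]
    rfl
  have hetac : eta π ≤ Ideal.span {c} :=
    le_span_of_length_le hη (hπd ▸ heta _ hdT) (D.ord.le.trans h)
  -- the residue field
  obtain ⟨ϖ, hϖ⟩ := IsDiscreteValuationRing.exists_irreducible O
  have hmax : maximalIdeal O = Ideal.span {ϖ} := hϖ.maximalIdeal_eq
  have hnot : ∀ t : T, φ d ≠ ϖ • t := fun t ht => by
    have h1 : ∀ t' : T, π t' = 0 → t' * t = 0 := fun t' h' => by
      have := hdT t' h'
      rw [ht, mul_smul_comm] at this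
      exact (smul_eq_zero.mp this).resolve_left hϖ.ne_zero
    obtain ⟨e, he⟩ := Ideal.mem_span_singleton'.mp (hetac (heta t h1))
    have h2 : c = ϖ * π t := by rw [← hπd, ht, map_smul, smul_eq_mul]
    rw [← he] at h2
    have h3 : ϖ * e = 1 := mul_right_cancel₀ hc0 (by rw [one_mul, mul_assoc]; exact h2.symm)
    exact hϖ.not_isUnit (IsUnit.of_mul_eq_one e h3)
  let K : MvPolynomial (Fin D.n) O →+* MvPolynomial (Fin D.n) (ResidueField O) :=
    MvPolynomial.map (residue O)
  have hKsurj : Function.Surjective K := MvPolynomial.map_surjective _ residue_surjective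
  let fk : Fin D.n → MvPolynomial (Fin D.n) (ResidueField O) := fun i => K (D.f i)
  set Q := Ideal.span (Set.range fk) with hQ
  have hfk : ∀ i, Box.Low (D.N i) (fk i - X i ^ D.N i) := fun i e he => by
    refine D.hf i e (support_map_subset (residue O) _ ?_)
    have : fk i - X i ^ D.N i = K (D.f i - X i ^ D.N i) := by
      rw [map_sub, map_pow]; congr 2; exact (map_X _ i).symm
    rwa [this] at he
  have hQI : Q = I.map K := by
    rw [hI, Ideal.map_span, ← Set.range_comp]; rfl
  have hlift : ∀ q, K q ∈ Q → ∃ q', q - C ϖ * q' ∈ I := fun q hq => by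
    rw [hQI, ← Ideal.mem_comap, Ideal.comap_map_of_surjective K hKsurj,
      ← RingHom.ker_eq_comap_bot] at hq
    obtain ⟨i, hi, w, hw, rfl⟩ := Submodule.mem_sup.mp hq
    change w ∈ RingHom.ker (MvPolynomial.map (residue O)) at hw
    rw [MvPolynomial.ker_map, ker_residue, hmax, Ideal.map_span, Set.image_singleton,
      Ideal.mem_span_singleton'] at hw
    obtain ⟨q', rfl⟩ := hw
    exact ⟨q', by rw [mul_comm q', add_sub_cancel_right]; exact hi⟩
  have hred : ∀ q, K q ∈ Q → ∃ q', φ q = ϖ • φ q' := fun q hq => by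
    obtain ⟨q', hq'⟩ := hlift q hq
    refine ⟨q', sub_eq_zero.mp ?_⟩
    rw [← map_smul, ← map_sub, smul_eq_C_mul]
    exact hφI _ hq'
  obtain ⟨l, hl, hlow⟩ := Box.exists_topForm D.N fk D.hN hfk
  have hsoc : ∀ z, (∀ i, z * X i ∈ Q) → l z = 0 → z ∈ Q := fun z hz hz' =>
    Box.mem_of_socle D.N fk D.hN hfk l hl hlow hz hz'
  have hKd : ∀ i, K d * X i ∈ Q := fun i => by
    rw [hQI, show K d * X i = K (d * X i) by rw [map_mul]; congr 1; exact (map_X _ i).symm]
    exact Ideal.mem_map_of_mem K (hdX i)
  have hld : l (K d) ≠ 0 := fun h0 => by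
    obtain ⟨q', hq'⟩ := hred d (hsoc _ hKd h0)
    exact hnot _ hq'
  have hsocJ : ∀ j ∈ J, (∀ i, K j * X i ∈ Q) → K j ∈ Q := fun j hj hjX => by
    obtain ⟨e, he⟩ := residue_surjective (l (K j) / l (K d))
    have hz : K (j - C e * d) ∈ Q := by
      refine hsoc _ (fun i => ?_) ?_
      · rw [map_sub, map_mul, sub_mul, mul_assoc]
        exact sub_mem (hjX i) (Ideal.mul_mem_left _ _ (hKd i))
      · rw [map_sub, map_mul, show K (C e) = C (residue O e) from map_C _ e, he, ← smul_eq_C_mul,
          map_sub, map_smul, smul_eq_mul, div_mul_cancel₀ _ hld, sub_self]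
    obtain ⟨q', hq'⟩ := hred _ hz
    have hj0 : φ j = 0 := hj
    rw [map_sub, hj0, zero_sub, map_mul, show φ (C e) = algebraMap O T e from φ.commutes e,
      ← Algebra.smul_def] at hq'
    by_cases hu : IsUnit e
    · obtain ⟨u, rfl⟩ := hu
      refine absurd ?_ (hnot (-((↑u⁻¹ : O) • φ q')))
      rw [smul_neg, smul_comm, ← hq', smul_neg, neg_neg, smul_smul, Units.inv_mul, one_smul]
    · have he0 : residue O e = 0 := (residue_eq_zero_iff e).mpr ((mem_maximalIdeal e).mpr hu)
      rw [map_sub, map_mul, show K (C e) = C (residue O e) from map_C _ e, he0, C_0, zero_mul,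
        sub_zero] at hz
      exact hz
  -- an element near one killing the powers of the origin
  haveI : Module.Finite (ResidueField O) (MvPolynomial (Fin D.n) (ResidueField O) ⧸ Q) :=
    Box.finite_quotient D.N fk D.hN hfk
  haveI : IsArtinianRing (MvPolynomial (Fin D.n) (ResidueField O) ⧸ Q) :=
    IsArtinianRing.of_finite (ResidueField O) _
  let MX : Ideal (MvPolynomial (Fin D.n) (ResidueField O)) := Ideal.span (Set.range X)
  let m : Ideal (MvPolynomial (Fin D.n) (ResidueField O) ⧸ Q) := MX.map (Ideal.Quotient.mk Q)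
  obtain ⟨k, hk⟩ := IsArtinian.monotone_stabilizes
    ⟨fun i => OrderDual.toDual (m ^ i), fun i i' hii => Ideal.pow_le_pow_right hii⟩
  have hk' : m ^ k = m ^ (k + 1) := congrArg OrderDual.ofDual (hk (k + 1) (Nat.le_succ k))
  obtain ⟨r, hr, hrk⟩ := Submodule.exists_sub_one_mem_and_smul_eq_zero_of_fg_of_le_smul m (m ^ k)
    (IsNoetherian.noetherian _) (by rw [smul_eq_mul, ← pow_succ', ← hk'])
  obtain ⟨y, hy, hyr⟩ := (Ideal.mem_map_iff_of_surjective _ Ideal.Quotient.mk_surjective).mp hr
  obtain ⟨w, hw⟩ := hKsurj (1 + y)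
  have hw1 : residue O (constantCoeff w) = 1 := by
    have hy0 : constantCoeff y = 0 := show y ∈ RingHom.ker constantCoeff from
      Ideal.span_le.mpr (by rintro _ ⟨i, rfl⟩; exact constantCoeff_X _ i) hy
    rw [← constantCoeff_map, show MvPolynomial.map (residue O) w = 1 + y from hw, map_add, hy0,
      map_one, add_zero]
  have hwk : ∀ z ∈ MX ^ k, K w * z ∈ Q := fun z hz => by
    rw [← Ideal.Quotient.eq_zero_iff_mem, map_mul, hw, map_add, map_one, hyr, add_sub_cancel]
    refine hrk _ ?_
    rw [← Ideal.map_pow]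
    exact Ideal.mem_map_of_mem _ hz
  have hkill : ∀ (i : ℕ), ∀ j ∈ J, (∀ z ∈ MX ^ i, K j * z ∈ Q) → K j ∈ Q := by
    intro i
    induction i with
    | zero => exact fun j _ hj => by simpa using hj 1 (by simp)
    | succ i ih =>
      intro j hj hjz
      refine hsocJ j hj fun v => ?_
      have := ih (j * X v) (Ideal.mul_mem_right _ _ hj) fun z hz => by
        rw [map_mul, show K (X v) = X v from map_X _ v, mul_assoc]
        exact hjz _ (by rw [pow_succ']; exact Ideal.mul_mem_mul (Ideal.subset_span ⟨v, rfl⟩) hz)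
      rwa [map_mul, show K (X v) = X v from map_X _ v] at this
  have hwJ : ∀ j ∈ J, ∃ q ∈ J, w * j - C ϖ * q ∈ I := fun j hj => by
    obtain ⟨q, hq⟩ := hlift (w * j) (hkill k _ (Ideal.mul_mem_left _ w hj) fun z hz => by
      rw [map_mul, mul_comm (K w), mul_assoc]
      exact Ideal.mul_mem_left _ _ (hwk z hz))
    refine ⟨q, ?_, hq⟩
    have h1 := hφI _ hq
    rw [map_sub, map_mul, show φ j = 0 from hj, mul_zero, zero_sub, neg_eq_zero, map_mul,
      show φ (C ϖ) = algebraMap O T ϖ from φ.commutes ϖ, ← Algebra.smul_def] at h1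
    exact (smul_eq_zero.mp h1).resolve_left hϖ.ne_zero
  -- Nakayama
  set mk := Ideal.Quotient.mk I
  set N' : Ideal (MvPolynomial (Fin D.n) O) := Ideal.span {C ϖ, 1 - w}
  obtain ⟨r', hr', hr'J⟩ := Submodule.exists_sub_one_mem_and_smul_eq_zero_of_fg_of_le_smul
    (N'.map mk) (J.map mk) (IsNoetherian.noetherian _) (fun z hz => by
      obtain ⟨j, hj, rfl⟩ := (Ideal.mem_map_iff_of_surjective _ Ideal.Quotient.mk_surjective).mp hz
      obtain ⟨q, hq, hqI⟩ := hwJ j hj
      have e : mk j = mk ((1 - w) * j) + mk (C ϖ * q) := by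
        rw [← map_add, Ideal.Quotient.eq]
        convert hqI using 1
        ring
      rw [e, smul_eq_mul, map_mul, map_mul]
      exact add_mem (Ideal.mul_mem_mul (Ideal.mem_map_of_mem _ (Ideal.subset_span (by simp)))
        (Ideal.mem_map_of_mem _ hj)) (Ideal.mul_mem_mul (Ideal.mem_map_of_mem _
        (Ideal.subset_span (by simp))) (Ideal.mem_map_of_mem _ hq)))
  obtain ⟨v, hv, hvr⟩ := (Ideal.mem_map_iff_of_surjective _ Ideal.Quotient.mk_surjective).mp hr'
  have hv0 : residue O (constantCoeff v) = 0 := show v ∈ RingHom.ker ((residue O).comp constantCoeff) from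
    Ideal.span_le.mpr (by
      rintro _ (rfl | rfl)
      · show residue O (constantCoeff (C ϖ)) = 0
        rw [constantCoeff_C, residue_eq_zero_iff, hmax]
        exact Ideal.mem_span_singleton_self ϖ
      · show residue O (constantCoeff (1 - w)) = 0
        rw [map_sub, map_sub, hw1, map_one, map_one, sub_self]) hv
  have hunit : IsUnit (ψ (1 + v)) := by
    refine (isUnit_or_isUnit_one_sub_self _).resolve_right fun hu => ?_
    have h1 := hu.map πR
    rw [map_sub, map_one, hev, map_add, map_one, sub_add_cancel_left] at h1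
    exact (mem_maximalIdeal _).mp ((residue_eq_zero_iff _).mp hv0) (IsUnit.neg_iff _ |>.mp h1)
  rw [injective_iff_map_eq_zero]
  intro z hz
  obtain ⟨j, rfl⟩ := D.surjective z
  have hjJ : j ∈ J := by
    show φ j = 0
    rw [hφ, AlgHom.comp_apply]
    exact hz
  have h1 := hr'J _ (Ideal.mem_map_of_mem mk hjJ)
  have hr1 : r' = mk (1 + v) := by rw [map_add, map_one, hvr, add_sub_cancel]
  rw [hr1, smul_eq_mul, ← map_mul, Ideal.Quotient.eq_zero_iff_mem] at h1
  have h2 := hψI _ h1
  rw [map_mul] at h2
  exact hunit.mul_right_eq_zero.mp h2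

/-- Diamond's criterion: if `d · len Φ ≤ len Ω`, `d` the rank of the eigenfunctionals, the module
is faithful. -/
theorem annihilator_eq_bot_of_omegaLen_ge {R : Type} [CommRing R] [Algebra O R] [IsLocalRing R]
    [Module.Finite O R] (π : R →ₐ[O] O) (M : Type) [AddCommGroup M] [Module O M] [Module R M]
    [IsScalarTower O R M] [Module.Finite O M] [Module.Free O M] (d : ℕ) (hd : 0 < d)
    (hrank : Module.finrank O (coEigen π M) = d)
    (hsep : ∃ r : R, π r ≠ 0 ∧ ∀ a : R, π a = 0 → ∀ m : M, (r * a) • m = 0)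
    (h : (d : ℕ∞) * cotLen π ≤ omegaLen π M) :
    Module.annihilator R M = ⊥ := by
  classical
  set J : Ideal R := Module.annihilator R M with hJdef
  haveI : IsNoetherian O (Module.Dual O M) := isNoetherian_of_isNoetherianRing_of_finite O _
  haveI : Module.Free O (coEigen π M) := by
    obtain ⟨m, b⟩ := Submodule.basisOfPid (Module.Free.chooseBasis O (Module.Dual O M)) (coEigen π M)
    exact Module.Free.of_basis b
  haveI : Nontrivial (coEigen π M) := Module.nontrivial_of_finrank_pos (R := O) (by omega)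
  obtain ⟨f, hf0⟩ := exists_ne (0 : coEigen π M)
  obtain ⟨m₀, hm₀⟩ : ∃ m, (f : Module.Dual O M) m ≠ 0 := by
    by_contra hc
    push Not at hc
    exact hf0 (Subtype.ext (LinearMap.ext hc))
  have hπJ : ∀ r ∈ J, π r = 0 := fun r hr => by
    have := f.2 r m₀
    rw [Module.mem_annihilator.mp hr m₀, map_zero] at this
    exact (mul_eq_zero.mp this.symm).resolve_right hm₀
  have hJtop : J ≠ ⊤ := fun hc => one_ne_zero ((map_one π).symm.trans (hπJ 1 (by rw [hc]; trivial)))
  haveI : Nontrivial (R ⧸ J) := Ideal.Quotient.nontrivial_iff.mpr hJtop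
  haveI : IsLocalRing (R ⧸ J) :=
    IsLocalRing.of_surjective' (Ideal.Quotient.mk J) Ideal.Quotient.mk_surjective
  haveI : Module.Finite O (R ⧸ J) :=
    Module.Finite.of_surjective (Ideal.Quotient.mkₐ O J).toLinearMap Ideal.Quotient.mk_surjective
  haveI : Module.IsTorsionFree O (R ⧸ J) := by
    refine Module.isTorsionFree_iff_smul_eq_zero.mpr fun c x hx => or_iff_not_imp_left.mpr fun hc => ?_
    obtain ⟨r, rfl⟩ := Ideal.Quotient.mk_surjective x
    change Ideal.Quotient.mk J (c • r) = 0 at hx
    rw [Ideal.Quotient.eq_zero_iff_mem] at hx ⊢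
    refine Module.mem_annihilator.mpr fun m => ?_
    have h1 := Module.mem_annihilator.mp hx m
    rw [smul_assoc] at h1
    exact (smul_eq_zero.mp h1).resolve_left hc
  let σ := Ideal.Quotient.mkₐ O J
  let πT : (R ⧸ J) →ₐ[O] O := Ideal.Quotient.liftₐ J π hπJ
  have hcomp : πT.comp σ = π := AlgHom.ext fun r => rfl
  obtain ⟨r₀, hr₀, hr₀'⟩ := hsep
  have hη : eta πT ≠ ⊥ := fun hb => by
    refine hr₀ ((Submodule.mem_bot O).mp (hb ▸ ?_))
    refine Ideal.mem_map_of_mem (x := σ r₀) πT.toRingHom (Submodule.mem_annihilator.mpr fun t ht => ?_)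
    obtain ⟨a, rfl⟩ := Ideal.Quotient.mk_surjective t
    show Ideal.Quotient.mk J r₀ • Ideal.Quotient.mk J a = 0
    rw [smul_eq_mul, ← map_mul, Ideal.Quotient.eq_zero_iff_mem]
    exact Module.mem_annihilator.mpr (hr₀' a ht)
  -- the congruence ideal kills the cokernel of the pairing
  haveI : Module.IsTorsionFree O (Module.Dual O M ⧸ coEigen π M) := by
    refine Module.isTorsionFree_iff_smul_eq_zero.mpr fun c x hx => or_iff_not_imp_left.mpr fun hc => ?_
    obtain ⟨g, rfl⟩ := Submodule.Quotient.mk_surjective _ x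
    rw [← Submodule.Quotient.mk_smul, Submodule.Quotient.mk_eq_zero] at hx
    refine (Submodule.Quotient.mk_eq_zero _).mpr fun r m => ?_
    have h1 := hx r m
    rw [LinearMap.smul_apply, LinearMap.smul_apply, smul_eq_mul, smul_eq_mul, mul_left_comm] at h1
    exact mul_left_cancel₀ hc h1
  haveI : Module.Finite O (Module.Dual O M ⧸ coEigen π M) := Module.Finite.quotient O _
  haveI : Module.Free O (Module.Dual O M ⧸ coEigen π M) := inferInstance
  obtain ⟨sec, hsec⟩ := Module.projective_lifting_property (coEigen π M).mkQ LinearMap.id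
    (Submodule.mkQ_surjective _)
  let proj : Module.Dual O M →ₗ[O] coEigen π M :=
    (LinearMap.id - sec.comp (coEigen π M).mkQ).codRestrict (coEigen π M) fun g =>
      (Submodule.Quotient.mk_eq_zero _).mp (by
        have := LinearMap.congr_fun hsec ((coEigen π M).mkQ g)
        rw [LinearMap.comp_apply, LinearMap.id_apply] at this
        show (coEigen π M).mkQ (g - sec ((coEigen π M).mkQ g)) = 0
        rw [map_sub, this, sub_self])
  have hproj : ∀ f : coEigen π M, proj f = f := fun f => Subtype.ext (by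
    show (f : Module.Dual O M) - sec ((coEigen π M).mkQ f) = f
    rw [show (coEigen π M).mkQ (f : Module.Dual O M) = 0 from
      (Submodule.Quotient.mk_eq_zero _).mpr f.2, map_zero, sub_zero])
  set Ω := Module.Dual O (coEigen π M) ⧸ LinearMap.range (pairingMap π M)
  have hkill : ∀ e ∈ eta πT, ∀ z : Ω, e • z = 0 := by
    intro e he z
    obtain ⟨t, ht, rfl⟩ := (Ideal.mem_map_iff_of_surjective πT.toRingHom
      (fun o => ⟨algebraMap O _ o, πT.commutes o⟩)).mp he
    obtain ⟨r, rfl⟩ := Ideal.Quotient.mk_surjective t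
    obtain ⟨g, rfl⟩ := Submodule.Quotient.mk_surjective _ z
    obtain ⟨m, hm⟩ := (Module.evalEquiv O M).surjective (g.comp proj)
    have hfm : ∀ f : coEigen π M, (f : Module.Dual O M) m = g f := fun f => by
      have := LinearMap.congr_fun hm (f : Module.Dual O M)
      rw [Module.evalEquiv_apply, Module.Dual.eval_apply, LinearMap.comp_apply, hproj] at this
      exact this
    rw [← Submodule.Quotient.mk_smul, Submodule.Quotient.mk_eq_zero]
    refine ⟨⟨r • m, fun a => ?_⟩, LinearMap.ext fun f => ?_⟩
    · have hk : Ideal.Quotient.mk J (a - algebraMap O R (π a)) ∈ RingHom.ker πT.toRingHom := by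
        show π (a - algebraMap O R (π a)) = 0
        rw [map_sub, AlgHom.commutes]; exact sub_self _
      have h1 := Submodule.mem_annihilator.mp ht _ hk
      rw [smul_eq_mul, ← map_mul, Ideal.Quotient.eq_zero_iff_mem] at h1
      have h2 := Module.mem_annihilator.mp h1 m
      rw [mul_comm, mul_smul, sub_smul, algebraMap_smul, sub_eq_zero] at h2
      exact h2
    · show (f : Module.Dual O M) (r • m) = π r • g f
      rw [f.2 r m, hfm, smul_eq_mul]
  haveI : Module.Finite O (coEigen π M) := Module.Finite.iff_fg.mpr (IsNoetherian.noetherian _)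
  let b := Module.finBasisOfFinrankEq O (coEigen π M) hrank
  let ω : Fin d → Ω := fun i => Submodule.Quotient.mk (b.coord i)
  let comp : Fin d → ((O ⧸ eta πT) →ₗ[O] Ω) := fun i =>
    (eta πT).liftQ (LinearMap.toSpanSingleton O Ω (ω i)) fun e he => hkill e he _
  let F : (Fin d → O ⧸ eta πT) →ₗ[O] Ω := ∑ i, (comp i).comp (LinearMap.proj i)
  have hF : Function.Surjective F := fun z => by
    obtain ⟨g, rfl⟩ := Submodule.Quotient.mk_surjective _ z
    refine ⟨fun i => Submodule.Quotient.mk (g (b i)), ?_⟩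
    rw [LinearMap.sum_apply]
    have hg : g = ∑ i, g (b i) • b.coord i := (b.sum_dual_apply_smul_coord g).symm
    conv_rhs => rw [hg, ← Submodule.mkQ_apply, map_sum]
    exact Finset.sum_congr rfl fun i _ => by rw [map_smul]; rfl
  have hΩ : omegaLen π M ≤ (d : ℕ∞) * Module.length O (O ⧸ eta πT) := by
    refine (Module.length_le_of_surjective F hF).trans (le_of_eq ?_)
    rw [Module.length_pi_of_fintype, Finset.sum_const, Finset.card_univ, Fintype.card_fin,
      nsmul_eq_mul]
  have hle : cotLen (πT.comp σ) ≤ Module.length O (O ⧸ eta πT) := by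
    rw [hcomp]
    exact (ENat.mul_le_mul_left_iff (by exact_mod_cast hd.ne') (ENat.natCast_ne_top d)).mp
      (h.trans hΩ)
  have hinj := injective_of_cotLen_le σ Ideal.Quotient.mk_surjective πT hη hle
  rw [eq_bot_iff]
  intro r hr
  exact (Submodule.mem_bot R).mpr (hinj (((Ideal.Quotient.eq_zero_iff_mem).mpr hr).trans (map_zero σ).symm))

end Fermat.Agent.R59
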