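/-
S59, units D and G: at a point of a finite flat complete intersection the cotangent space is no longer
than the congruence quotient, and for a free module the cokernel of the pairing is as long as its
rank times the congruence quotient.
-/
import Mathlib
import Fermat.Agent.R59.Crit.Main
import Fermat.Agent.R59.Crit.Jacobian

set_option autoImplicit false
set_option linter.unusedSectionVars false
set_option linter.style.haveILetI false

noncomputable section

namespace Fermat.Agent.R59

open IsLocalRing MvPowerSeries

variable {O : Type} [CommRing O] [IsDomain O] [IsDiscreteValuationRing O]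

/-- The length of the cokernel of a square matrix is the order of its determinant. -/
theorem length_quotient_range_mulVec {n : ℕ} (A : Matrix (Fin n) (Fin n) O) (hA : A.det ≠ 0) :
    Module.length O ((Fin n → O) ⧸ LinearMap.range (Matrix.toLin' A)) = Ring.ord O A.det := by
  classical
  set L := Matrix.toLin' A with hL
  have hinj : Function.Injective L := by
    rw [injective_iff_map_eq_zero]
    intro v hv
    have h : A.det • v = 0 := by
      have := congrArg (fun B => Matrix.mulVec B v) A.adjugate_mul
      simp only [Matrix.smul_mulVec, Matrix.one_mulVec, ← Matrix.mulVec_mulVec] at this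
      rw [← this, show A.mulVec v = 0 from hv, Matrix.mulVec_zero]
    exact (smul_eq_zero.mp h).resolve_left hA
  set N := LinearMap.range L
  have hrank : Module.finrank O N = Module.finrank O (Fin n → O) :=
    LinearMap.finrank_range_of_inj hinj
  let b := Pi.basisFun O (Fin n)
  let a := Submodule.smithNormalFormCoeffs b hrank
  let bM := Submodule.smithNormalFormTopBasis b hrank
  let bN := Submodule.smithNormalFormBotBasis b hrank
  let e : (Fin n → O) ≃ₗ[O] (Fin n → O) := (LinearEquiv.ofInjective L hinj).trans bN.equivFun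
  let D : (Fin n → O) →ₗ[O] (Fin n → O) :=
    (bM.equivFun.symm : (Fin n → O) →ₗ[O] (Fin n → O)).comp (Matrix.toLin' (Matrix.diagonal a))
  have hLD : L = D.comp (e : (Fin n → O) →ₗ[O] (Fin n → O)) := by
    refine LinearMap.ext fun v => ?_
    have h1 := congrArg (fun w : N => (w : Fin n → O))
      (bN.equivFun.symm_apply_apply (LinearEquiv.ofInjective L hinj v))
    simp only [Module.Basis.equivFun_symm_apply, Submodule.coe_sum, SetLike.val_smul,
      LinearEquiv.ofInjective_apply] at h1
    rw [← h1]
    show _ = bM.equivFun.symm (Matrix.toLin' (Matrix.diagonal a) (e v))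
    rw [Module.Basis.equivFun_symm_apply, Matrix.toLin'_apply]
    refine Finset.sum_congr rfl fun i _ => ?_
    rw [Submodule.smithNormalFormBotBasis_def b hrank i, smul_smul, Matrix.mulVec_diagonal, mul_comm]
    rfl
  have hdet : Associated A.det (∏ i, a i) := by
    have h : A.det = LinearMap.det (bM.equivFun.symm : (Fin n → O) →ₗ[O] (Fin n → O)) *
        (∏ i, a i) * LinearMap.det (e : (Fin n → O) →ₗ[O] (Fin n → O)) := by
      rw [← LinearMap.det_toLin', ← hL, hLD, LinearMap.det_comp, LinearMap.det_comp,
        LinearMap.det_toLin', Matrix.det_diagonal]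
    rw [h, mul_right_comm]
    exact (associated_isUnit_mul_left_iff ((LinearEquiv.isUnit_det' _).mul (LinearEquiv.isUnit_det' _))).mpr
      (Associated.refl _)
  have hord : Ring.ord O A.det = Ring.ord O (∏ i, a i) := by
    obtain ⟨u, hu⟩ := hdet.symm
    rw [← hu, Ring.ord_mul_of_isUnit_right u.isUnit]
  rw [hord, ord_prod Finset.univ a fun i _ => Submodule.smithNormalFormCoeffs_ne_zero b hrank i,
    (N.quotientEquivPiSpan b hrank).length_eq, Module.length_pi_of_fintype]
  rfl

/-- The annihilator of the kernel of a point is a line. -/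
theorem exists_eq_smul_of_annihilator {T : Type} [CommRing T] [Algebra O T]
    [Module.IsTorsionFree O T] (π : T →ₐ[O] O) (hη : eta π ≠ ⊥) {e t : T}
    (he : ∀ t' : T, π t' = 0 → t' * e = 0) (hgen : eta π = Ideal.span {π e})
    (ht : ∀ t' : T, π t' = 0 → t' * t = 0) : ∃ o : O, t = o • e := by
  have hπe : π e ≠ 0 := fun h => hη (by rw [hgen, h, Ideal.span_singleton_eq_bot])
  have hmem : π t ∈ eta π := Ideal.mem_map_of_mem π.toRingHom
    (Submodule.mem_annihilator.mpr fun t' ht' => by rw [smul_eq_mul, mul_comm]; exact ht t' ht')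
  rw [hgen, Ideal.mem_span_singleton'] at hmem
  obtain ⟨o, ho⟩ := hmem
  refine ⟨o, sub_eq_zero.mp ?_⟩
  have hπ0 : π (t - o • e) = 0 := by rw [map_sub, map_smul, smul_eq_mul, ho, sub_self]
  have h1 : (t - o • e) * e = 0 := he _ hπ0
  have h2 : (e - algebraMap O T (π e)) * (t - o • e) = 0 := by
    have hz : π (e - algebraMap O T (π e)) = 0 := by rw [map_sub, AlgHom.commutes]; exact sub_self _
    rw [mul_sub, mul_smul_comm, ht _ hz, he _ hz, smul_zero, sub_self]
  rw [sub_mul, mul_comm, h1, zero_sub, neg_eq_zero, ← Algebra.smul_def] at h2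
  exact (smul_eq_zero.mp h2).resolve_left hπe

variable [Finite (ResidueField O)] {T : Type} [CommRing T] [IsLocalRing T] [Algebra O T]
  [Module.Finite O T] [Module.IsTorsionFree O T]

/-- The maximal ideal of the base lands in that of a local algebra with a point. -/
theorem eq_zero_or_mem_of_point (π : T →ₐ[O] O) {t : T} (ht : π t ∈ maximalIdeal O) :
    t ∈ maximalIdeal T :=
  (mem_maximalIdeal t).mpr fun hu => (mem_maximalIdeal _).mp ht (hu.map π)

/-- Tate's inequality for a complete intersection. -/
theorem cotLen_le_length_of_ci {n : ℕ} (π : T →ₐ[O] O) (ψ : MvPowerSeries (Fin n) O →ₐ[O] T)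
    (hψ : Function.Surjective ψ) (hψX : ∀ i, π (ψ (X i)) = 0)
    (f : Fin n → MvPowerSeries (Fin n) O) (hker : RingHom.ker ψ = Ideal.span (Set.range f)) :
    cotLen π ≤ Module.length O (O ⧸ eta π) := by
  classical
  by_cases hη : eta π = ⊥
  · refine le_trans le_top (le_of_eq (Eq.symm ?_))
    rw [hη, (Submodule.quotEquivOfEqBot (⊥ : Ideal O) rfl).length_eq]
    by_contra h
    have : IsArtinianRing O :=
      (isFiniteLength_iff_isNoetherian_isArtinian.mp (Module.length_ne_top_iff.mp h)).2
    exact IsDiscreteValuationRing.not_isField O (IsArtinianRing.isField_of_isDomain O)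
  have hrange : ∀ g : (MvPowerSeries (Fin n) O), constantCoeff g = 0 → g ∈ Ideal.span (Set.range (X : Fin n → (MvPowerSeries (Fin n) O))) :=
    fun g hg => by
      have h := (Patching.mem_span_X_iff (Finset.univ : Finset (Fin n)) g).mpr fun m hm => by
        rw [show m = 0 from Finsupp.ext fun j => hm j (Finset.mem_univ j), coeff_zero_eq_constantCoeff_apply, hg]
      rwa [Finset.coe_univ, Set.image_univ] at h
  have hψspan : ∀ g ∈ Ideal.span (Set.range (X : Fin n → (MvPowerSeries (Fin n) O))), π (ψ g) = 0 := fun g hg =>
    show g ∈ RingHom.ker (π.comp ψ).toRingHom from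
      Ideal.span_le.mpr (by rintro _ ⟨i, rfl⟩; exact hψX i) hg
  have hev : ∀ g, π (ψ g) = constantCoeff g := fun g => by
    have h := hψspan _ (hrange (g - C (constantCoeff g)) (by rw [map_sub, constantCoeff_C, sub_self]))
    rw [map_sub, map_sub, sub_eq_zero] at h
    rw [h, show (C (constantCoeff g) : MvPowerSeries (Fin n) O) =
        algebraMap O (MvPowerSeries (Fin n) O) (constantCoeff g) by
        rw [MvPowerSeries.algebraMap_apply, Algebra.algebraMap_self, RingHom.id_apply],
      AlgHom.commutes, AlgHom.commutes]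
    rfl
  have hf0 : ∀ i, ψ (f i) = 0 := fun i => by
    have : f i ∈ RingHom.ker ψ := by rw [hker]; exact Ideal.subset_span ⟨i, rfl⟩
    exact this
  choose A hA using fun i => (Submodule.mem_span_range_iff_exists_fun (MvPowerSeries (Fin n) O)).mp
    (hrange (f i) (by rw [← hev, hf0, map_zero]))
  have hAX : ∀ i, f i = ∑ j, A i j * X j := fun i => (hA i).symm
  set M : Matrix (Fin n) (Fin n) (MvPowerSeries (Fin n) O) := Matrix.of A
  set d := M.det
  set M₀ : Matrix (Fin n) (Fin n) O := M.map constantCoeff
  have hcd : π (ψ d) = M₀.det := by rw [hev, RingHom.map_det]; rfl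
  have hgen : ∀ t : T, π t = 0 → t ∈ Ideal.span (Set.range fun j => ψ (X j)) := fun t ht => by
    obtain ⟨g, rfl⟩ := hψ t
    rw [hev] at ht
    have h2 := Ideal.mem_map_of_mem ψ (hrange g ht)
    rw [Ideal.map_span, ← Set.range_comp] at h2
    exact h2
  have hdX : ∀ j, d * X j ∈ Ideal.span (Set.range f) := fun j => by
    have e : M.adjugate.mulVec f = fun j => d * X j := by
      rw [show f = M.mulVec X from funext hAX, Matrix.mulVec_mulVec, Matrix.adjugate_mul,
        Matrix.smul_mulVec, Matrix.one_mulVec]
      rfl
    rw [← congrFun e j]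
    show ∑ i, M.adjugate j i * f i ∈ _
    exact Ideal.sum_mem _ fun i _ => Ideal.mul_mem_left _ _ (Ideal.subset_span (s := Set.range f) ⟨i, rfl⟩)
  have hdT : ∀ t : T, π t = 0 → t * ψ d = 0 := fun t ht => by
    obtain ⟨c, rfl⟩ := (Submodule.mem_span_range_iff_exists_fun T).mp (hgen t ht)
    rw [Finset.sum_mul]
    refine Finset.sum_eq_zero fun j _ => ?_
    have h0 : d * X j ∈ RingHom.ker ψ := by rw [hker]; exact hdX j
    rw [smul_eq_mul, mul_assoc, mul_comm (ψ (X j)), ← map_mul, show ψ (d * X j) = 0 from h0, mul_zero]
  -- a generator of the annihilator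
  obtain ⟨c, hc⟩ := (IsPrincipalIdealRing.principal (eta π)).principal
  change eta π = Ideal.span {c} at hc
  obtain ⟨e, he, hec⟩ := (Ideal.mem_map_iff_of_surjective π.toRingHom
    (fun o => ⟨algebraMap O T o, π.commutes o⟩)).mp
    (show c ∈ eta π by rw [hc]; exact Ideal.mem_span_singleton_self c)
  have he' : ∀ t' : T, π t' = 0 → t' * e = 0 := fun t' ht' => by
    have := Submodule.mem_annihilator.mp he t' ht'
    rwa [smul_eq_mul, mul_comm] at this
  obtain ⟨u, hu⟩ := exists_eq_smul_of_annihilator π hη he' (by rw [hc]; exact congrArg _ (congrArg _ hec.symm)) hdT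
  have huu : IsUnit u := by
    by_contra hnu
    obtain ⟨ϖ, hϖ⟩ := IsDiscreteValuationRing.exists_irreducible O
    obtain ⟨u', rfl⟩ : ϖ ∣ u := by
      rw [← Ideal.mem_span_singleton, ← hϖ.maximalIdeal_eq]
      exact (mem_maximalIdeal u).mpr hnu
    obtain ⟨h, hh⟩ := hψ (u' • e)
    have hd' : d - algebraMap O (MvPowerSeries (Fin n) O) ϖ * h ∈ Ideal.span (Set.range f) := by
      rw [← hker]
      show ψ _ = 0
      rw [map_sub, map_mul, AlgHom.commutes, hh, hu, ← Algebra.smul_def, smul_smul, sub_self]
    let K : (MvPowerSeries (Fin n) O) →+* MvPowerSeries (Fin n) (ResidueField O) := MvPowerSeries.map (residue O)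
    have hKϖ : K (algebraMap O (MvPowerSeries (Fin n) O) ϖ) = 0 := by
      have h1 : residue O ϖ = 0 := (residue_eq_zero_iff ϖ).mpr
        (by rw [hϖ.maximalIdeal_eq]; exact Ideal.mem_span_singleton_self ϖ)
      refine MvPowerSeries.ext fun m => ?_
      rw [coeff_map, map_zero, MvPowerSeries.algebraMap_apply, coeff_C]
      split <;> simp [h1]
    have hKd : K d ∈ Ideal.span (Set.range fun i => K (f i)) := by
      have h2 := Ideal.mem_map_of_mem K hd'
      rwa [map_sub, map_mul, hKϖ, zero_mul, sub_zero, Ideal.map_span, ← Set.range_comp] at h2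
    -- powers of the variables
    haveI : Finite (O ⧸ maximalIdeal O) := ‹Finite (ResidueField O)›
    set J := (maximalIdeal O).map (algebraMap O T)
    haveI : Finite (T ⧸ J) := Module.finite_of_finite (O ⧸ maximalIdeal O)
    obtain ⟨k, hk⟩ := exists_maximalIdeal_pow_le_of_isArtinianRing_quotient J
    have hX : ∀ i, (X i : MvPowerSeries (Fin n) (ResidueField O)) ^ (k + 1) ∈
        Ideal.span (Set.range fun i => K (f i)) := fun i => by
      have hmem : ψ (X i) ∈ maximalIdeal T :=
        eq_zero_or_mem_of_point π (by rw [hψX]; exact zero_mem _)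
      have h1 : ψ (X i) ^ (k + 1) ∈ J := hk (Ideal.pow_le_pow_right (Nat.le_succ k)
        (Ideal.pow_mem_pow hmem _))
      rw [show J = Ideal.span {algebraMap O T ϖ} by
        show Ideal.map _ _ = _
        rw [hϖ.maximalIdeal_eq, Ideal.map_span, Set.image_singleton], Ideal.mem_span_singleton'] at h1
      obtain ⟨s, hs⟩ := h1
      obtain ⟨g, rfl⟩ := hψ s
      have h2 : X i ^ (k + 1) - g * algebraMap O (MvPowerSeries (Fin n) O) ϖ ∈ Ideal.span (Set.range f) := by
        rw [← hker]
        show ψ _ = 0
        rw [map_sub, map_pow, map_mul, AlgHom.commutes, hs, sub_self]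
      have h3 := Ideal.mem_map_of_mem K h2
      rw [map_sub, map_mul, hKϖ, mul_zero, sub_zero, map_pow, Ideal.map_span, ← Set.range_comp] at h3
      rwa [show K (X i) = X i from MvPowerSeries.map_X _ i] at h3
    choose B hB using fun i => (Submodule.mem_span_range_iff_exists_fun _).mp (hX i)
    let Bm : Matrix (Fin n) (Fin n) (MvPowerSeries (Fin n) (ResidueField O)) := Matrix.of B
    let Am := M.map K
    have hfK : (fun i => K (f i)) = Am.mulVec X := funext fun i => by
      rw [hAX, map_sum]
      exact Finset.sum_congr rfl fun j _ => by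
        rw [map_mul, show K (X j) = X j from MvPowerSeries.map_X _ j]; rfl
    refine Jacobian.det_not_mem (fun _ => k + 1) (fun _ => Nat.succ_pos k) (Bm * Am) (fun i => ?_) ?_
    · rw [← Matrix.mulVec_mulVec, ← hfK]
      exact hB i
    · rw [Matrix.det_mul, show Am.det = K d from (RingHom.map_det K M).symm]
      obtain ⟨w, hw⟩ := (Submodule.mem_span_range_iff_exists_fun _).mp hKd
      have hBf : ∀ l, Bm.det * K (f l) ∈
          Ideal.span (Set.range fun i => (X i : MvPowerSeries (Fin n) (ResidueField O)) ^ (k + 1)) := by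
        intro l
        have h4 : (fun i => Bm.det * K (f i)) =
            Bm.adjugate.mulVec fun i => X i ^ (k + 1) := by
          rw [show (fun i => (X i : MvPowerSeries (Fin n) (ResidueField O)) ^ (k + 1)) =
            Bm.mulVec fun i => K (f i) from funext fun i => (hB i).symm, Matrix.mulVec_mulVec,
            Matrix.adjugate_mul, Matrix.smul_mulVec, Matrix.one_mulVec]
          rfl
        rw [congrFun h4 l]
        show ∑ i, Bm.adjugate l i * X i ^ (k + 1) ∈ _
        exact Ideal.sum_mem _ fun i _ => Ideal.mul_mem_left _ _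
          (Ideal.subset_span (s := Set.range fun i =>
            (X i : MvPowerSeries (Fin n) (ResidueField O)) ^ (k + 1)) ⟨i, rfl⟩)
      rw [← hw, Finset.mul_sum]
      exact Ideal.sum_mem _ fun i _ => by
        rw [smul_eq_mul, mul_left_comm]
        exact Ideal.mul_mem_left _ _ (hBf i)
  have hcdet : Associated c M₀.det := by
    rw [← hcd, hu, map_smul, smul_eq_mul, show π e = c from hec]
    exact (associated_isUnit_mul_left_iff huu).mpr (Associated.refl c) |>.symm
  have heta : eta π = Ideal.span {M₀.det} := by rw [hc, Ideal.span_singleton_eq_span_singleton.mpr hcdet]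
  have hdet0 : M₀.det ≠ 0 := fun h => hη (by rw [heta, h, Ideal.span_singleton_eq_bot])
  -- the cotangent space is a quotient of the cokernel
  rw [heta, ← show Ring.ord O M₀.det = Module.length O (O ⧸ Ideal.span {M₀.det}) from rfl,
    ← M₀.det_transpose, ← length_quotient_range_mulVec _ (by rwa [Matrix.det_transpose])]
  let x : Fin n → RingHom.ker π.toRingHom := fun j => ⟨ψ (X j), hψX j⟩
  let L : (Fin n → O) →ₗ[O] Cot π :=
    Fintype.linearCombination O fun j => (RingHom.ker π.toRingHom).toCotangent (x j)
  have hpoint : ∀ (t : T) (y : RingHom.ker π.toRingHom),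
      (RingHom.ker π.toRingHom).toCotangent (t • y) =
        π t • (RingHom.ker π.toRingHom).toCotangent y := fun t y => by
    rw [show π t • (RingHom.ker π.toRingHom).toCotangent y =
      (RingHom.ker π.toRingHom).toCotangent ((algebraMap O T (π t)) • y) by
        rw [map_smul, algebraMap_smul], Ideal.toCotangent_eq, pow_two]
    show t * (y : T) - algebraMap O T (π t) * (y : T) ∈ _
    rw [← sub_mul]
    refine Ideal.mul_mem_mul ?_ y.2
    show π (t - algebraMap O T (π t)) = 0
    rw [map_sub, AlgHom.commutes]
    exact sub_self _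
  have hLsurj : Function.Surjective L := fun z => by
    obtain ⟨⟨t, ht⟩, rfl⟩ := (RingHom.ker π.toRingHom).toCotangent_surjective z
    obtain ⟨w, hw⟩ := (Submodule.mem_span_range_iff_exists_fun T).mp (hgen t ht)
    refine ⟨fun j => π (w j), ?_⟩
    rw [Fintype.linearCombination_apply]
    rw [show (⟨t, ht⟩ : RingHom.ker π.toRingHom) = ∑ j, w j • x j from Subtype.ext (by
      rw [Submodule.coe_sum]; exact hw.symm), map_sum]
    exact Finset.sum_congr rfl fun j _ => (hpoint _ _).symm
  have hle : LinearMap.range (Matrix.toLin' M₀.transpose) ≤ LinearMap.ker L := by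
    rintro _ ⟨v, rfl⟩
    rw [LinearMap.mem_ker, Matrix.toLin'_apply, Fintype.linearCombination_apply]
    have h1 : ∀ i, ∑ j, M₀ i j • (RingHom.ker π.toRingHom).toCotangent (x j) = 0 := fun i => by
      have h2 : (∑ j, ψ (A i j) • x j : RingHom.ker π.toRingHom) = 0 := Subtype.ext (by
        rw [Submodule.coe_sum, Submodule.coe_zero, ← hf0 i, hAX, map_sum]
        exact Finset.sum_congr rfl fun j _ => (map_mul ψ _ _).symm)
      have h3 := congrArg (RingHom.ker π.toRingHom).toCotangent h2
      rw [map_sum, map_zero] at h3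
      rw [← h3]
      refine Finset.sum_congr rfl fun j _ => ?_
      rw [hpoint, hev]
      rfl
    simp only [Matrix.mulVec, dotProduct, Matrix.transpose_apply, Finset.sum_smul]
    rw [Finset.sum_comm]
    refine Finset.sum_eq_zero fun i _ => ?_
    simp only [mul_comm (M₀ i _), mul_smul]
    rw [← Finset.smul_sum, h1 i, smul_zero]
  exact Module.length_le_of_surjective ((LinearMap.range (Matrix.toLin' M₀.transpose)).liftQ L hle)
    (fun z => by obtain ⟨v, rfl⟩ := hLsurj z; exact ⟨Submodule.Quotient.mk v, rfl⟩)

omit [Finite (ResidueField O)] [IsLocalRing T] in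
/-- For a free module the pairing has cokernel of length rank times the congruence quotient. -/
theorem omegaLen_ge_of_free (π : T →ₐ[O] O) (hη : eta π ≠ ⊥) (M : Type) [AddCommGroup M]
    [Module O M] [Module T M] [IsScalarTower O T M] [Module.Free T M] [Module.Finite T M] :
    (Module.finrank O (coEigen π M) : ℕ∞) * Module.length O (O ⧸ eta π) ≤ omegaLen π M := by
  classical
  haveI : Nontrivial T := ⟨⟨0, 1, fun h => zero_ne_one ((map_zero π).symm.trans ((congrArg π h).trans (map_one π)))⟩⟩
  let b := Module.Free.chooseBasis T M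
  let fw : (Module.Free.ChooseBasisIndex T M → O) → coEigen π M := fun o =>
    ⟨{ toFun := fun m => ∑ i, o i * π (b.repr m i)
       map_add' := fun m m' => by
        simp only [map_add, Finsupp.add_apply, mul_add, Finset.sum_add_distrib]
       map_smul' := fun c m => by
        rw [← algebraMap_smul T c m]
        simp only [map_smul, Finsupp.smul_apply, smul_eq_mul, map_mul, AlgHom.commutes,
          RingHom.id_apply, Finset.mul_sum]
        exact Finset.sum_congr rfl fun i _ => by rw [mul_left_comm]; rfl }, fun r m => by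
      show ∑ i, o i * π (b.repr (r • m) i) = π r * ∑ i, o i * π (b.repr m i)
      simp only [map_smul, Finsupp.smul_apply, smul_eq_mul, map_mul, Finset.mul_sum]
      exact Finset.sum_congr rfl fun i _ => mul_left_comm _ _ _⟩
  have happ : ∀ (g : coEigen π M) m,
      (g : Module.Dual O M) m = ∑ i, (g : Module.Dual O M) (b i) * π (b.repr m i) := fun g m => by
    conv_lhs => rw [← b.sum_repr m, map_sum]
    exact Finset.sum_congr rfl fun i _ => by rw [g.2, mul_comm]
  have hfw : ∀ o i, (fw o : Module.Dual O M) (b i) = o i := fun o i => by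
    show ∑ j, o j * π (b.repr (b i) j) = o i
    rw [Finset.sum_eq_single i (fun j _ hj => by
      rw [b.repr_self, Finsupp.single_eq_of_ne hj, map_zero, mul_zero])
      (fun h => absurd (Finset.mem_univ i) h), b.repr_self, Finsupp.single_eq_same, map_one, mul_one]
  let ev : coEigen π M ≃ₗ[O] (Module.Free.ChooseBasisIndex T M → O) :=
    { toFun := fun g i => (g : Module.Dual O M) (b i)
      map_add' := fun _ _ => rfl
      map_smul' := fun _ _ => rfl
      invFun := fw
      left_inv := fun g => Subtype.ext (LinearMap.ext fun m => (happ g m).symm)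
      right_inv := fun o => funext (hfw o) }
  rw [ev.finrank_eq, Module.finrank_pi]
  let q : Module.Dual O (coEigen π M) →ₗ[O] (Module.Free.ChooseBasisIndex T M → O ⧸ eta π) :=
    LinearMap.pi fun i => (Submodule.mkQ (eta π)).comp
      (LinearMap.applyₗ (fw (Pi.single i (1 : O))))
  have hq : LinearMap.range (pairingMap π M) ≤ LinearMap.ker q := by
    rintro _ ⟨⟨m, hm⟩, rfl⟩
    refine funext fun i => (Submodule.Quotient.mk_eq_zero _).mpr ?_
    show (fw (Pi.single i (1 : O)) : Module.Dual O M) m ∈ eta π
    show ∑ j, ((Pi.single i (1 : O)) : Module.Free.ChooseBasisIndex T M → O) j * π (b.repr m j) ∈ eta π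
    rw [Finset.sum_eq_single i (fun j _ hj => by rw [Pi.single_eq_of_ne hj, zero_mul])
      (fun h => absurd (Finset.mem_univ i) h), Pi.single_eq_same, one_mul]
    refine Ideal.mem_map_of_mem π.toRingHom (Submodule.mem_annihilator.mpr fun r hr => ?_)
    have h2 := congrArg (fun z => b.repr z i) (hm r)
    simp only [← algebraMap_smul T (π r) m, map_smul, Finsupp.smul_apply, smul_eq_mul] at h2
    rw [show π r = 0 from hr, map_zero, zero_mul] at h2
    rw [smul_eq_mul, mul_comm]
    exact h2
  have hsurj : Function.Surjective q := fun z => by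
    choose o ho using fun i => Submodule.Quotient.mk_surjective (eta π) (z i)
    refine ⟨(Fintype.linearCombination O o).comp (ev : coEigen π M →ₗ[O] _), funext fun i => ?_⟩
    show Submodule.Quotient.mk (Fintype.linearCombination O o (ev (fw (Pi.single i (1 : O))))) = z i
    rw [show ev (fw (Pi.single i (1 : O))) = Pi.single i 1 from funext (hfw _),
      Fintype.linearCombination_apply_single, one_smul, ho]
  refine le_trans (le_of_eq ?_) (Module.length_le_of_surjective
    ((LinearMap.range (pairingMap π M)).liftQ q hq) fun z => ?_)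
  · rw [Module.length_pi_of_fintype, Finset.sum_const, Finset.card_univ, nsmul_eq_mul]
  · obtain ⟨g, rfl⟩ := hsurj z
    exact ⟨Submodule.Quotient.mk g, rfl⟩

end Fermat.Agent.R59
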